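import Fermat.Agent.LT.Recip.Quad

/-!
# Diagonalisation of the norm form at the infinite places
-/

set_option autoImplicit false
set_option linter.unusedSectionVars false

open NumberField Module

namespace Fermat.Agent.LT.Recip

section posrel

/-- `a` is a positive real multiple of `b`. -/
def PosRel (a b : ℂ) : Prop := ∃ K : ℝ, 0 < K ∧ a = K * b

theorem PosRel.refl (a : ℂ) : PosRel a a := ⟨1, one_pos, by simp⟩

theorem PosRel.symm {a b : ℂ} (h : PosRel a b) : PosRel b a := by
  obtain ⟨K, hK, rfl⟩ := h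
  refine ⟨K⁻¹, inv_pos.mpr hK, ?_⟩
  have : (K : ℂ) ≠ 0 := by exact_mod_cast hK.ne'
  push_cast
  field_simp

theorem PosRel.trans {a b c : ℂ} (h : PosRel a b) (h' : PosRel b c) : PosRel a c := by
  obtain ⟨K, hK, rfl⟩ := h
  obtain ⟨K', hK', rfl⟩ := h'
  exact ⟨K * K', mul_pos hK hK', by push_cast; ring⟩

theorem PosRel.mul {a b a' b' : ℂ} (h : PosRel a b) (h' : PosRel a' b') :
    PosRel (a * a') (b * b') := by
  obtain ⟨K, hK, rfl⟩ := h
  obtain ⟨K', hK', rfl⟩ := h'
  exact ⟨K * K', mul_pos hK hK', by push_cast; ring⟩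

theorem PosRel.prod {ι : Type*} (s : Finset ι) {f g : ι → ℂ} (h : ∀ i ∈ s, PosRel (f i) (g i)) :
    PosRel (∏ i ∈ s, f i) (∏ i ∈ s, g i) := by
  classical
  induction s using Finset.induction_on with
  | empty => simpa using PosRel.refl 1
  | insert i s hi ih =>
    rw [Finset.prod_insert hi, Finset.prod_insert hi]
    exact (h i (Finset.mem_insert_self _ _)).mul (ih fun j hj => h j (Finset.mem_insert_of_mem hj))

theorem PosRel.ne_zero {a b : ℂ} (h : PosRel a b) (hb : b ≠ 0) : a ≠ 0 := by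
  obtain ⟨K, hK, rfl⟩ := h
  exact mul_ne_zero (by exact_mod_cast hK.ne') hb

/-- local constants -/
noncomputable def gc (z : ℝ) : ℂ := (Complex.I / (2 * z)) ^ (1 / 2 : ℂ)

theorem gc_ne_zero {z : ℝ} (hz : z ≠ 0) : gc z ≠ 0 := by
  unfold gc
  rw [Complex.cpow_ne_zero_iff]
  left
  have : (z : ℂ) ≠ 0 := by exact_mod_cast hz
  exact div_ne_zero Complex.I_ne_zero (mul_ne_zero two_ne_zero this)

theorem gc_mul_pos {a : ℝ} (ha : 0 < a) (z : ℝ) : PosRel (gc (a * z)) (gc z) := by
  unfold gc
  have h1 : (Complex.I / (2 * ((a * z : ℝ) : ℂ))) = ((a⁻¹ : ℝ) : ℂ) * (Complex.I / (2 * z)) := by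
    push_cast
    have : (a : ℂ) ≠ 0 := by exact_mod_cast ha.ne'
    rcases eq_or_ne z 0 with rfl | hz
    · simp
    · have : (z : ℂ) ≠ 0 := by exact_mod_cast hz
      field_simp
  rw [h1, real_mul_cpow (inv_pos.mpr ha)]
  refine ⟨a⁻¹ ^ (1 / 2 : ℝ), Real.rpow_pos_of_pos (inv_pos.mpr ha) _, ?_⟩
  congr 1
  rw [Complex.ofReal_cpow (inv_pos.mpr ha).le]
  push_cast; rfl

theorem gc_sign {z z' : ℝ} (h : 0 < z * z') : PosRel (gc z) (gc z') := by
  have hz' : z' ≠ 0 := by rintro rfl; simp at h
  have h1 : 0 < z / z' := by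
    have : z / z' = (z * z') / z' ^ 2 := by field_simp
    rw [this]; positivity
  have h2 := gc_mul_pos h1 z'
  rwa [div_mul_cancel₀ _ hz'] at h2

theorem gc_neg {z : ℝ} (hz : z ≠ 0) : PosRel (gc z * gc (-z)) 1 := by
  have h1 : gc (-z) = (starRingEnd ℂ) (gc z) := by
    unfold gc
    have h2 : (Complex.I / (2 * ((-z : ℝ) : ℂ))) = (starRingEnd ℂ) (Complex.I / (2 * z)) := by
      rw [map_div₀, Complex.conj_I, map_mul, Complex.conj_ofReal]
      simp only [map_ofNat]
      push_cast
      rw [mul_neg, div_neg, neg_div]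
    rw [h2, Complex.conj_cpow]
    · have h4 : (starRingEnd ℂ) (1 / 2 : ℂ) = 1 / 2 := by
        rw [map_div₀, map_one, map_ofNat]
      rw [h4]
    · intro h3
      rw [Complex.arg_eq_pi_iff] at h3
      have : (Complex.I / (2 * z) : ℂ) = ((1 / (2 * z) : ℝ) : ℂ) * Complex.I := by
        push_cast; ring
      rw [this] at h3
      simp at h3
  rw [h1, Complex.mul_conj]
  exact ⟨Complex.normSq (gc z), Complex.normSq_pos.mpr (gc_ne_zero hz), by simp⟩

end posrel

section blk

open scoped Classical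

variable (F : Type) [Field F] [NumberField F]

/-- index set of real coordinates -/
abbrev J0 : Type :=
  {w : InfinitePlace F // w.IsReal} ⊕
    ({w : InfinitePlace F // w.IsComplex} ⊕ {w : InfinitePlace F // w.IsComplex})

/-- The trace over `ℚ` as a real number. -/
noncomputable def trR {F : Type} [Field F] [NumberField F] (z : F) : ℝ :=
  ((Algebra.trace ℚ F z : ℚ) : ℝ)

/-- the real coordinate of `z` at a real place. -/
noncomputable def rc {F : Type} [Field F] [NumberField F] (w : InfinitePlace F) (z : F) : ℝ :=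
  (w.embedding z).re

theorem card_J0 : Fintype.card (J0 F) = finrank ℚ F := by
  rw [Fintype.card_sum, Fintype.card_sum, ← InfinitePlace.card_add_two_mul_card_eq_rank (K := F)]
  unfold InfinitePlace.nrRealPlaces InfinitePlace.nrComplexPlaces
  rw [two_mul]

variable {F}

theorem trR_eq (z : F) : trR z = ∑ w : {w : InfinitePlace F // w.IsReal}, rc w.1 z +
    ∑ w : {w : InfinitePlace F // w.IsComplex}, 2 * (w.1.embedding z).re := by
  unfold trR
  rw [trace_eq_sum, InfinitePlace.sum_eq_sum_add_sum]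
  congr 1
  · refine Finset.sum_congr rfl fun w _ => ?_
    rw [InfinitePlace.mult_isReal]; simp [rc]
  · refine Finset.sum_congr rfl fun w _ => ?_
    rw [InfinitePlace.mult_isComplex]; simp

theorem emb_real (w : {w : InfinitePlace F // w.IsReal}) (z : F) :
    w.1.embedding z = (rc w.1 z : ℂ) := by
  have h := InfinitePlace.embedding_of_isReal_apply w.2 z
  unfold rc
  rw [← h, Complex.ofReal_re]

theorem rc_mul (w : {w : InfinitePlace F // w.IsReal}) (x y : F) :
    rc w.1 (x * y) = rc w.1 x * rc w.1 y := by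
  have h : w.1.embedding (x * y) = w.1.embedding x * w.1.embedding y := map_mul _ _ _
  rw [emb_real, emb_real, emb_real, ← Complex.ofReal_mul] at h
  exact_mod_cast h

theorem rc_ne_zero (w : {w : InfinitePlace F // w.IsReal}) {x : F} (hx : x ≠ 0) :
    rc w.1 x ≠ 0 := by
  intro h
  have h1 := emb_real w x
  rw [h, Complex.ofReal_zero, map_eq_zero] at h1
  exact hx h1

theorem rc_inv (w : {w : InfinitePlace F // w.IsReal}) (x : F) : rc w.1 x⁻¹ = (rc w.1 x)⁻¹ := by
  have h : w.1.embedding x⁻¹ = (w.1.embedding x)⁻¹ := map_inv₀ _ _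
  rw [emb_real, emb_real, ← Complex.ofReal_inv] at h
  exact_mod_cast h

theorem rc_neg (w : InfinitePlace F) (x : F) : rc w (-x) = -rc w x := by
  unfold rc; simp

/-- A diagonalisation of the form `Tr (ω x²)`. -/
structure Blk (ω : F) where
  /-- coordinates -/
  l : J0 F → F →+ ℝ
  /-- dual coordinates -/
  r : J0 F → F →+ ℝ
  /-- coefficients -/
  c : J0 F → ℝ
  hc : ∀ j, c j ≠ 0
  hlr : ∀ x y, ∑ j, l j x * r j y = trR (x * y)
  hl : ∀ x, ∑ j, c j * l j x ^ 2 = trR (ω * x ^ 2)
  hr : ∀ y, ∑ j, r j y ^ 2 / (4 * c j) = trR (y ^ 2 / (4 * ω))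
  hprod : PosRel (∏ j, gc (c j)) (∏ w : {w : InfinitePlace F // w.IsReal}, gc (rc w.1 ω))

/-- A complex additive coordinate. -/
noncomputable def reH (φ : F →+* ℂ) (a : ℂ) : F →+ ℝ where
  toFun z := (a * φ z).re
  map_zero' := by simp
  map_add' x y := by simp [mul_add]

/-- A complex additive coordinate. -/
noncomputable def imH (φ : F →+* ℂ) (a : ℂ) : F →+ ℝ where
  toFun z := (a * φ z).im
  map_zero' := by simp
  map_add' x y := by simp [mul_add]

theorem exists_blk {ω : F} (hω : ω ≠ 0) : Nonempty (Blk ω) := by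
  classical
  have hu : ∀ w : {w : InfinitePlace F // w.IsComplex}, ∃ u : ℂ, u ≠ 0 ∧
      u ^ 2 * ‖w.1.embedding ω‖ = w.1.embedding ω := by
    intro w
    have h0 : w.1.embedding ω ≠ 0 := by rwa [Ne, map_eq_zero]
    have h1 : (‖w.1.embedding ω‖ : ℂ) ≠ 0 := by
      exact_mod_cast (norm_ne_zero_iff.mpr h0)
    obtain ⟨u, hu⟩ := IsAlgClosed.exists_pow_nat_eq
      (w.1.embedding ω / ‖w.1.embedding ω‖) two_pos
    refine ⟨u, ?_, ?_⟩
    · rintro rfl
      rw [zero_pow two_ne_zero] at hu
      exact (div_ne_zero h0 h1) hu.symm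
    · rw [hu, div_mul_cancel₀ _ h1]
  choose u hu0 hu1 using hu
  have hn : ∀ w : {w : InfinitePlace F // w.IsComplex}, 0 < ‖w.1.embedding ω‖ := by
    intro w
    rw [norm_pos_iff, Ne, map_eq_zero]; exact hω
  have hωe : ∀ w : {w : InfinitePlace F // w.IsComplex}, w.1.embedding ω ≠ 0 := by
    intro w
    rwa [Ne, map_eq_zero]
  refine ⟨{
    l := Sum.elim (fun w => reH w.1.embedding 1)
      (Sum.elim (fun w => reH w.1.embedding (u w)) (fun w => imH w.1.embedding (u w)))
    r := Sum.elim (fun w => reH w.1.embedding 1)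
      (Sum.elim (fun w => reH w.1.embedding (2 * (u w)⁻¹))
        (fun w => imH w.1.embedding (-(2 * (u w)⁻¹))))
    c := Sum.elim (fun w => rc w.1 ω)
      (Sum.elim (fun w => 2 * ‖w.1.embedding ω‖) (fun w => -(2 * ‖w.1.embedding ω‖)))
    hc := ?_
    hlr := ?_
    hl := ?_
    hr := ?_
    hprod := ?_ }⟩
  · rintro (w | w | w)
    · exact rc_ne_zero w hω
    · exact (mul_pos two_pos (hn w)).ne'
    · exact neg_ne_zero.mpr (mul_pos two_pos (hn w)).ne'
  · intro x y
    rw [Fintype.sum_sum_type, Fintype.sum_sum_type, trR_eq, ← Finset.sum_add_distrib]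
    congr 1
    · refine Finset.sum_congr rfl fun w _ => ?_
      rw [rc_mul]
      simp only [Sum.elim_inl, reH, AddMonoidHom.coe_mk, ZeroHom.coe_mk, one_mul]
      rfl
    · refine Finset.sum_congr rfl fun w _ => ?_
      simp only [Sum.elim_inl, Sum.elim_inr, reH, imH, AddMonoidHom.coe_mk, ZeroHom.coe_mk]
      have h1 : w.1.embedding (x * y) = (u w * w.1.embedding x) * ((u w)⁻¹ * w.1.embedding y) := by
        rw [map_mul]; field_simp [hu0 w]
      have h2 : (2 * (u w)⁻¹ * w.1.embedding y) = ((2 : ℝ) : ℂ) * ((u w)⁻¹ * w.1.embedding y) := by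
        push_cast; ring
      have h3 : (-(2 * (u w)⁻¹) * w.1.embedding y) =
          ((-2 : ℝ) : ℂ) * ((u w)⁻¹ * w.1.embedding y) := by
        push_cast; ring
      rw [h1, h2, h3, Complex.re_ofReal_mul, Complex.im_ofReal_mul]
      generalize u w * w.1.embedding x = a
      generalize (u w)⁻¹ * w.1.embedding y = b
      rw [Complex.mul_re]
      ring
  · intro x
    rw [Fintype.sum_sum_type, Fintype.sum_sum_type, trR_eq, ← Finset.sum_add_distrib]
    congr 1
    · refine Finset.sum_congr rfl fun w _ => ?_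
      rw [rc_mul, pow_two x, rc_mul]
      simp only [Sum.elim_inl, reH, AddMonoidHom.coe_mk, ZeroHom.coe_mk, one_mul]
      rw [pow_two]
      rfl
    · refine Finset.sum_congr rfl fun w _ => ?_
      simp only [Sum.elim_inl, Sum.elim_inr, reH, imH, AddMonoidHom.coe_mk, ZeroHom.coe_mk]
      have h1 : w.1.embedding (ω * x ^ 2) =
          ((‖w.1.embedding ω‖ : ℝ) : ℂ) * (u w * w.1.embedding x) ^ 2 := by
        rw [map_mul, map_pow]
        conv_lhs => rw [← hu1 w]
        ring
      rw [h1, Complex.re_ofReal_mul]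
      generalize u w * w.1.embedding x = a
      rw [pow_two a, Complex.mul_re]
      ring
  · intro y
    rw [Fintype.sum_sum_type, Fintype.sum_sum_type, trR_eq, ← Finset.sum_add_distrib]
    congr 1
    · refine Finset.sum_congr rfl fun w _ => ?_
      have h4 : rc w.1 (4 : F) = 4 := by
        unfold rc
        rw [show w.1.embedding (4 : F) = 4 from map_ofNat _ 4]
        simp
      rw [div_eq_mul_inv, div_eq_mul_inv, rc_mul, rc_inv, rc_mul, pow_two y, rc_mul, h4]
      simp only [Sum.elim_inl, reH, AddMonoidHom.coe_mk, ZeroHom.coe_mk, one_mul]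
      rw [pow_two]
      rfl
    · refine Finset.sum_congr rfl fun w _ => ?_
      simp only [Sum.elim_inl, Sum.elim_inr, reH, imH, AddMonoidHom.coe_mk, ZeroHom.coe_mk]
      have h1 : w.1.embedding (y ^ 2 / (4 * ω)) =
          (((4 * ‖w.1.embedding ω‖)⁻¹ : ℝ) : ℂ) * ((u w)⁻¹ * w.1.embedding y) ^ 2 := by
        have h5 : w.1.embedding (4 : F) = 4 := map_ofNat _ 4
        have h6 : (‖w.1.embedding ω‖ : ℂ) ≠ 0 := by exact_mod_cast (hn w).ne'
        rw [map_div₀, map_mul, map_pow, h5]
        conv_lhs => rw [← hu1 w]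
        push_cast
        field_simp [hu0 w]
      have h2 : (2 * (u w)⁻¹ * w.1.embedding y) = ((2 : ℝ) : ℂ) * ((u w)⁻¹ * w.1.embedding y) := by
        push_cast; ring
      have h3 : (-(2 * (u w)⁻¹) * w.1.embedding y) =
          ((-2 : ℝ) : ℂ) * ((u w)⁻¹ * w.1.embedding y) := by
        push_cast; ring
      rw [h1, h2, h3, Complex.re_ofReal_mul, Complex.im_ofReal_mul, Complex.re_ofReal_mul]
      generalize (u w)⁻¹ * w.1.embedding y = b
      rw [pow_two b, Complex.mul_re]
      have := (hn w).ne'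
      field_simp
      ring
  · rw [Fintype.prod_sum_type, Fintype.prod_sum_type, ← Finset.prod_mul_distrib]
    simp only [Sum.elim_inl, Sum.elim_inr]
    have h1 : PosRel (∏ w : {w : InfinitePlace F // w.IsComplex},
        gc (2 * ‖w.1.embedding ω‖) * gc (-(2 * ‖w.1.embedding ω‖)))
        (∏ _w : {w : InfinitePlace F // w.IsComplex}, (1 : ℂ)) :=
      PosRel.prod _ fun w _ => gc_neg (mul_pos two_pos (hn w)).ne'
    have h2 := (PosRel.refl (∏ w : {w : InfinitePlace F // w.IsReal}, gc (rc w.1 ω))).mul h1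
    simpa using h2

end blk

end Fermat.Agent.LT.Recip
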