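import Fermat.Agent.LT.Recip.Blk

/-!
# Reciprocity for the Gauss sums of the norm form of a quadratic extension
-/

set_option autoImplicit false
set_option linter.unusedSectionVars false

open NumberField Module Matrix

namespace Fermat.Agent.LT.Recip

open Fermat.Agent.LT.I

/-- `q ↦ e^{2πi q}` -/
noncomputable def eQ (q : ℚ) : ℂ := Complex.exp (2 * Real.pi * Complex.I * ((q : ℝ) : ℂ))

theorem eQ_add (p q : ℚ) : eQ (p + q) = eQ p * eQ q := by
  unfold eQ
  rw [← Complex.exp_add]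
  congr 1
  push_cast; ring

@[simp] theorem eQ_zero : eQ 0 = 1 := by simp [eQ]

theorem eQ_int (n : ℤ) : eQ n = 1 := by
  unfold eQ
  have : (2 * Real.pi * Complex.I * (((n : ℚ) : ℝ) : ℂ)) = (n : ℂ) * (2 * Real.pi * Complex.I) := by
    push_cast; ring
  rw [this, Complex.exp_int_mul_two_pi_mul_I]

theorem eQ_add_int (q : ℚ) (n : ℤ) : eQ (q + n) = eQ q := by
  rw [eQ_add, eQ_int, mul_one]

section trace

variable {F E : Type} [Field F] [NumberField F] [Field E] [NumberField E] [Algebra F E]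

theorem trace_int {z : F} (hz : IsIntegral ℤ z) : ∃ n : ℤ, Algebra.trace ℚ F z = n :=
  ⟨Algebra.trace ℤ (𝓞 F) ⟨z, hz⟩, (Algebra.coe_trace_int (K := F) ⟨z, hz⟩).symm⟩

variable (Q : QE F E)

theorem QE.norm_add (ξ ζ : E) : Algebra.norm F (ξ + ζ) =
    Algebra.norm F ξ + Algebra.trace F E (ξ * Q.t ζ) + Algebra.norm F ζ := by
  apply (algebraMap F E).injective
  rw [map_add (algebraMap F E), map_add (algebraMap F E), Q.norm_eq, Q.norm_eq, Q.norm_eq,
    Q.trace_eq, map_add, map_mul, Q.t_t]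
  ring

include Q in
theorem QE.norm_algebraMap (a : F) (ξ : E) : Algebra.norm F (algebraMap F E a * ξ) =
    a ^ 2 * Algebra.norm F ξ := by
  rw [map_mul, Algebra.norm_algebraMap, Q.h2]

include Q in
theorem QE.norm_natCast (n : ℕ) (ξ : E) : Algebra.norm F ((n : E) * ξ) =
    (n : F) ^ 2 * Algebra.norm F ξ := by
  rw [← map_natCast (algebraMap F E) n, Q.norm_algebraMap]

include Q in
/-- periodicity of `Tr ω N` on lattices -/
theorem exists_per (M : ℕ) (hM : M ≠ 0) (ω : F) : ∃ N : ℕ, N ≠ 0 ∧ ∀ ξ ζ : E,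
    IsIntegral ℤ ((M : E) * ξ) → IsIntegral ℤ ((M : E) * ζ) →
    ∃ n : ℤ, Algebra.trace ℚ F (ω * Algebra.norm F (ξ + (N : E) * ζ)) =
      Algebra.trace ℚ F (ω * Algebra.norm F ξ) + n := by
  obtain ⟨M', hM', h1⟩ : ∃ M' : ℕ, M' ≠ 0 ∧ IsIntegral ℤ ((M' : F) * ω) := by
    have halg : IsAlgebraic ℤ ω := by
      have : IsAlgebraic ℚ ω := Algebra.IsAlgebraic.isAlgebraic ω
      exact (IsFractionRing.isAlgebraic_iff ℤ ℚ F).mpr this
    obtain ⟨y, hy, h2⟩ := halg.exists_integral_multiple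
    refine ⟨y.natAbs, Int.natAbs_ne_zero.mpr hy, ?_⟩
    rcases Int.natAbs_eq y with h3 | h3
    · rw [h3, zsmul_eq_mul] at h2
      simpa using h2
    · rw [h3, zsmul_eq_mul] at h2
      have := h2.neg
      simpa using this
  refine ⟨M ^ 2 * M', mul_ne_zero (pow_ne_zero _ hM) hM', fun ξ ζ hξ hζ => ?_⟩
  have hmain : ω * Algebra.norm F (ξ + ((M ^ 2 * M' : ℕ) : E) * ζ) = ω * Algebra.norm F ξ +
      ((M' : F) * ω) * Algebra.trace F E ((M * ξ) * Q.t (M * ζ)) +
      ((M' : F) * ω) * Algebra.norm F ((M : E) * ζ) * (M ^ 2 * M' : ℕ) := by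
    rw [Q.norm_add, Q.norm_natCast, Q.norm_natCast]
    have h4 : (M * ξ) * Q.t ((M : E) * ζ) = algebraMap F E ((M : F) ^ 2) * (ξ * Q.t ζ) := by
      rw [map_mul, map_natCast, map_pow, map_natCast]; ring
    have h5 : ξ * Q.t (((M ^ 2 * M' : ℕ) : E) * ζ) =
        algebraMap F E ((M : F) ^ 2 * M') * (ξ * Q.t ζ) := by
      rw [map_mul, map_natCast, map_mul, map_pow, map_natCast, map_natCast]; push_cast; ring
    rw [h4, h5, ← Algebra.smul_def, ← Algebra.smul_def, map_smul, map_smul, smul_eq_mul,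
      smul_eq_mul]
    push_cast
    ring
  have i1 : IsIntegral ℤ (Algebra.trace F E ((M * ξ) * Q.t ((M : E) * ζ))) := by
    refine Algebra.isIntegral_trace ?_
    exact hξ.mul (hζ.map (Q.t : E →+* E).toIntAlgHom)
  have i2 : IsIntegral ℤ (Algebra.norm F ((M : E) * ζ)) := Algebra.isIntegral_norm F hζ
  obtain ⟨n, hn⟩ := trace_int (((h1.mul i1).add ((h1.mul i2).mul
    (isIntegral_natCast (R := ℤ) (B := F) (M ^ 2 * M')))))
  refine ⟨n, ?_⟩
  rw [← hn, ← map_add, hmain]
  congr 1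
  ring

variable (E) in
/-- The dual of `𝓞 E` for the trace form. -/
def dualL : AddSubgroup E where
  carrier := {η | ∀ ξ : 𝓞 E, ∃ n : ℤ, Algebra.trace ℚ E ((ξ : E) * η) = n}
  add_mem' := by
    intro a b ha hb ξ
    obtain ⟨n, hn⟩ := ha ξ
    obtain ⟨m, hm⟩ := hb ξ
    exact ⟨n + m, by rw [mul_add, map_add, hn, hm]; push_cast; rfl⟩
  zero_mem' := fun ξ => ⟨0, by simp⟩
  neg_mem' := by
    intro a ha ξ
    obtain ⟨n, hn⟩ := ha ξ
    exact ⟨-n, by rw [mul_neg, map_neg, hn]; push_cast; rfl⟩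

theorem mem_dualL {η : E} : η ∈ dualL E ↔
    ∀ ξ : 𝓞 E, ∃ n : ℤ, Algebra.trace ℚ E ((ξ : E) * η) = n := Iff.rfl

end trace

section basis

variable {E : Type} [Field E] [NumberField E] {J : Type} [Fintype J] [DecidableEq J]
  (b : Basis J ℤ (𝓞 E))

/-- the `ℚ`-basis -/
noncomputable def bQ : Basis J ℚ E := b.localizationLocalization ℚ (nonZeroDivisors ℤ) E

theorem bQ_apply (j : J) : bQ b j = (b j : E) := Basis.localizationLocalization_apply _ _ _ _ _

/-- The dual basis. -/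
noncomputable def bD : Basis J ℚ E :=
  (Algebra.traceForm ℚ E).dualBasis (traceForm_nondegenerate ℚ E) (bQ b)

theorem trace_bD (i j : J) : Algebra.trace ℚ E ((b i : E) * bD b j) = if i = j then 1 else 0 := by
  have h := LinearMap.BilinForm.apply_dualBasis_left (traceForm_nondegenerate ℚ E) (bQ b) j i
  rw [Algebra.traceForm_apply, bQ_apply] at h
  rw [mul_comm]
  exact h

theorem bD_mem (j : J) : bD b j ∈ dualL E := by
  rw [mem_dualL]
  intro ξ
  rw [← b.sum_repr ξ]
  refine ⟨b.repr ξ j, ?_⟩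
  have h1 : ((∑ i, b.repr ξ i • b i : 𝓞 E) : E) = ∑ i, (b.repr ξ i : ℚ) • (b i : E) := by
    change algebraMap (𝓞 E) E _ = _
    rw [map_sum]
    refine Finset.sum_congr rfl fun i _ => ?_
    rw [zsmul_eq_mul, map_mul, map_intCast, Rat.smul_def]
    simp
  rw [h1, Finset.sum_mul, map_sum]
  simp_rw [smul_mul_assoc, map_smul, trace_bD, smul_eq_mul, mul_ite, mul_one, mul_zero]
  simp

/-- integer coordinates on `𝓞 E` -/
noncomputable def eqO : (J → ℤ) ≃+ 𝓞 E := b.equivFun.symm.toAddEquiv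

theorem eqO_apply (m : J → ℤ) : ((eqO b m : 𝓞 E) : E) = ∑ j, (m j : E) * b j := by
  change ((b.equivFun.symm m : 𝓞 E) : E) = _
  rw [b.equivFun_symm_apply]
  change algebraMap (𝓞 E) E _ = _
  rw [map_sum]
  refine Finset.sum_congr rfl fun i _ => ?_
  rw [zsmul_eq_mul, map_mul, map_intCast]

/-- integer coordinates on the dual lattice -/
noncomputable def homD : (J → ℤ) →+ dualL E where
  toFun k := ⟨∑ j, (k j : E) * bD b j, sum_mem fun j _ => by
    rw [← zsmul_eq_mul]; exact zsmul_mem (bD_mem b j) _⟩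
  map_zero' := by ext; simp
  map_add' k k' := by
    ext
    simp only [Pi.add_apply, Int.cast_add, add_mul, Finset.sum_add_distrib]
    rfl

theorem homD_apply (k : J → ℤ) : ((homD b k : dualL E) : E) = ∑ j, (k j : E) * bD b j := rfl

theorem homD_bijective : Function.Bijective (homD b) := by
  constructor
  · rw [injective_iff_map_eq_zero]
    intro k hk
    have h1 : ∑ j, (k j : ℚ) • bD b j = 0 := by
      have := congrArg Subtype.val hk
      rw [homD_apply] at this
      simpa [Rat.smul_def] using this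
    have h2 := Fintype.linearIndependent_iff.mp (bD b).linearIndependent (fun j => (k j : ℚ)) h1
    funext j
    exact_mod_cast h2 j
  · rintro ⟨η, hη⟩
    rw [mem_dualL] at hη
    choose n hn using hη
    refine ⟨fun j => n (b j), ?_⟩
    ext
    rw [homD_apply]
    have h3 : η = ∑ j, ((Algebra.trace ℚ E ((b j : E) * η) : ℚ)) • bD b j := by
      conv_lhs => rw [← (bD b).sum_repr η]
      refine Finset.sum_congr rfl fun j _ => ?_
      congr 1
      unfold bD
      rw [LinearMap.BilinForm.dualBasis_repr_apply, Algebra.traceForm_apply, bQ_apply, mul_comm]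
    change _ = η
    conv_rhs => rw [h3]
    refine Finset.sum_congr rfl fun j _ => ?_
    rw [hn, Rat.smul_def]
    simp

/-- integer coordinates on the dual lattice -/
noncomputable def eqD : (J → ℤ) ≃+ dualL E := AddEquiv.ofBijective (homD b) (homD_bijective b)

theorem eqD_apply (k : J → ℤ) : ((eqD b k : dualL E) : E) = ∑ j, (k j : E) * bD b j := rfl

include b in
theorem exists_dual_denom : ∃ M : ℕ, M ≠ 0 ∧ ∀ η ∈ dualL E, IsIntegral ℤ ((M : E) * η) := by
  have h1 : ∀ j, ∃ M : ℕ, M ≠ 0 ∧ IsIntegral ℤ ((M : E) * bD b j) := by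
    intro j
    have halg : IsAlgebraic ℤ (bD b j) := by
      have : IsAlgebraic ℚ (bD b j) := Algebra.IsAlgebraic.isAlgebraic _
      exact (IsFractionRing.isAlgebraic_iff ℤ ℚ E).mpr this
    obtain ⟨y, hy, h2⟩ := halg.exists_integral_multiple
    refine ⟨y.natAbs, Int.natAbs_ne_zero.mpr hy, ?_⟩
    rcases Int.natAbs_eq y with h3 | h3
    · rw [h3, zsmul_eq_mul] at h2
      simpa using h2
    · rw [h3, zsmul_eq_mul] at h2
      have := h2.neg
      simpa using this
  choose M hM h2 using h1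
  refine ⟨∏ j, M j, Finset.prod_ne_zero_iff.mpr fun j _ => hM j, fun η hη => ?_⟩
  obtain ⟨k, hk⟩ := (homD_bijective b).2 ⟨η, hη⟩
  have h3 : η = ∑ j, (k j : E) * bD b j := by
    rw [← homD_apply, hk]
  rw [h3, Finset.mul_sum]
  refine IsIntegral.sum _ fun j _ => ?_
  have h4 : ((∏ i, M i : ℕ) : E) * ((k j : E) * bD b j) =
      ((k j * ∏ i ∈ Finset.univ.erase j, M i : ℤ) : E) * ((M j : E) * bD b j) := by
    rw [← Finset.mul_prod_erase _ _ (Finset.mem_univ j)]
    push_cast
    ring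
  rw [h4]
  exact (isIntegral_intCast (R := ℤ) (B := E) _).mul (h2 j)

end basis

section main

variable {F E : Type} [Field F] [NumberField F] [Field E] [NumberField E] [Algebra F E]
  (Q : QE F E)

open scoped Classical in
/-- the archimedean constant -/
noncomputable def Gam (d ω : F) : ℂ :=
  ∏ w : {w : InfinitePlace F // w.IsReal}, (gc (rc w.1 ω) * gc (rc w.1 (-(d * ω))))

open scoped Classical in
theorem Gam_ne_zero {d ω : F} (hd : d ≠ 0) (hω : ω ≠ 0) : Gam d ω ≠ 0 := by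
  unfold Gam
  refine Finset.prod_ne_zero_iff.mpr fun w _ => mul_ne_zero (gc_ne_zero (rc_ne_zero w hω))
    (gc_ne_zero (rc_ne_zero w (neg_ne_zero.mpr (mul_ne_zero hd hω))))

open scoped Classical in
/-- The archimedean constant only depends on signs at the ramified real places. -/
theorem Gam_rel {d ω ω' : F} (hd : d ≠ 0) (hω : ω ≠ 0) (hω' : ω' ≠ 0)
    (h : ∀ w : {w : InfinitePlace F // w.IsReal}, rc w.1 d < 0 → 0 < rc w.1 ω * rc w.1 ω') :
    PosRel (Gam d ω) (Gam d ω') := by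
  unfold Gam
  refine PosRel.prod _ fun w _ => ?_
  rcases lt_or_gt_of_ne (rc_ne_zero w hd) with h1 | h1
  · refine (gc_sign (h w h1)).mul (gc_sign ?_)
    rw [rc_neg, rc_neg, rc_mul, rc_mul]
    have e : -(rc w.1 d * rc w.1 ω) * -(rc w.1 d * rc w.1 ω') =
        (rc w.1 d) ^ 2 * (rc w.1 ω * rc w.1 ω') := by ring
    rw [e]
    exact mul_pos (sq_pos_of_ne_zero h1.ne) (h w h1)
  · have key : ∀ z : F, z ≠ 0 → PosRel (gc (rc w.1 z) * gc (rc w.1 (-(d * z)))) 1 := by
      intro z hz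
      have h2 := rc_ne_zero w hz
      refine PosRel.trans ((PosRel.refl _).mul ?_) (gc_neg h2)
      refine gc_sign ?_
      rw [rc_neg, rc_mul]
      have e : -(rc w.1 d * rc w.1 z) * -rc w.1 z = rc w.1 d * (rc w.1 z) ^ 2 := by ring
      rw [e]
      positivity
    exact (key ω hω).trans (key ω' hω').symm

theorem trR_add (x y : F) : trR (x + y) = trR x + trR y := by
  unfold trR; rw [map_add]; push_cast; rfl

theorem Per.of_eq {J : Type} [Fintype J] {G : Type} [AddCommGroup G] (e : (J → ℤ) ≃+ G) {N : ℕ}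
    {f : G → ℂ} (h : ∀ x y : G, f (x + N • y) = f x) :
    ∀ m k : J → ℤ, (f ∘ e) (m + fun j => N * k j) = (f ∘ e) m := by
  intro m k
  have h1 : (fun j => (N : ℤ) * k j) = N • k := by
    funext j; simp
  simp only [Function.comp_apply]
  rw [h1, map_add, map_nsmul, h]

open scoped Classical in
/-- **Reciprocity** for the norm form. -/
theorem field_recip {s : E} {d : F} (hs0 : s ≠ 0) (hd : d ≠ 0) (hts : Q.t s = -s)
    (hsd : s ^ 2 = algebraMap F E d) {ω : F} (hω : ω ≠ 0) :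
    IsPer (fun ξ : 𝓞 E => eQ (Algebra.trace ℚ F (ω * Algebra.norm F (ξ : E)))) ∧
    IsPer (fun η : dualL E => eQ (-Algebra.trace ℚ F (Algebra.norm F (η : E) / ω))) ∧
    PosRel (mean fun ξ : 𝓞 E => eQ (Algebra.trace ℚ F (ω * Algebra.norm F (ξ : E))))
      (Gam d ω * mean fun η : dualL E => eQ (-Algebra.trace ℚ F (Algebra.norm F (η : E) / ω))) := by
  have hω2 : -(d * ω) ≠ 0 := neg_ne_zero.mpr (mul_ne_zero hd hω)
  obtain ⟨B1⟩ := exists_blk hω
  obtain ⟨B2⟩ := exists_blk hω2
  let J := J0 F ⊕ J0 F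
  have hcard : Fintype.card (Free.ChooseBasisIndex ℤ (𝓞 E)) = Fintype.card J := by
    have h1 : Fintype.card (Free.ChooseBasisIndex ℤ (𝓞 E)) = finrank ℚ E := by
      rw [← Module.finrank_eq_card_basis (integralBasis E)]
    have hfin := Q.finite
    rw [h1, Fintype.card_sum, card_J0, ← finrank_mul_finrank ℚ F E, Q.h2]
    ring
  let b : Basis J ℤ (𝓞 E) := (RingOfIntegers.basis E).reindex (Fintype.equivOfCardEq hcard)
  let L : J → E →+ ℝ := Sum.elim
    (fun j => (B1.l j).comp (AddMonoidHom.mk' (fun ξ : E => cX F ξ) cX_add))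
    (fun j => (B2.l j).comp (AddMonoidHom.mk' (fun ξ : E => cY s d ξ) (cY_add s d)))
  let Rr : J → E →+ ℝ := Sum.elim
    (fun j => (B1.r j).comp (AddMonoidHom.mk' (fun ξ : E => 2 * cX F ξ) fun x y => by
      rw [cX_add, mul_add]))
    (fun j => (B2.r j).comp (AddMonoidHom.mk' (fun ξ : E => 2 * d * cY s d ξ) fun x y => by
      rw [cY_add, mul_add]))
  let c : J → ℝ := Sum.elim B1.c B2.c
  have hLR : ∀ ξ η : E, ∑ j, L j ξ * Rr j η = trR (ξ * η) := by
    intro ξ η
    rw [Fintype.sum_sum_type]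
    have h1 : ∑ j, L (Sum.inl j) ξ * Rr (Sum.inl j) η = trR (cX F ξ * (2 * cX F η)) :=
      B1.hlr _ _
    have h2 : ∑ j, L (Sum.inr j) ξ * Rr (Sum.inr j) η =
        trR (cY s d ξ * (2 * d * cY s d η)) := B2.hlr _ _
    rw [h1, h2, ← trR_add, ← trace_coord Q hs0 hts hsd]
    unfold trR
    rw [Algebra.trace_trace]
  have hL2 : ∀ ξ : E, ∑ j, c j * L j ξ ^ 2 = trR (ω * Algebra.norm F ξ) := by
    intro ξ
    rw [Fintype.sum_sum_type]
    have h1 : ∑ j, c (Sum.inl j) * L (Sum.inl j) ξ ^ 2 = trR (ω * cX F ξ ^ 2) := B1.hl _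
    have h2 : ∑ j, c (Sum.inr j) * L (Sum.inr j) ξ ^ 2 = trR (-(d * ω) * cY s d ξ ^ 2) := B2.hl _
    rw [h1, h2, ← trR_add, norm_coord Q hs0 hts hsd]
    congr 1; ring
  have hR2 : ∀ η : E, ∑ j, Rr j η ^ 2 / (4 * c j) = trR (Algebra.norm F η / ω) := by
    intro η
    rw [Fintype.sum_sum_type]
    have h1 : ∑ j, Rr (Sum.inl j) η ^ 2 / (4 * c (Sum.inl j)) =
        trR ((2 * cX F η) ^ 2 / (4 * ω)) := B1.hr _
    have h2 : ∑ j, Rr (Sum.inr j) η ^ 2 / (4 * c (Sum.inr j)) =
        trR ((2 * d * cY s d η) ^ 2 / (4 * -(d * ω))) := B2.hr _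
    rw [h1, h2, ← trR_add, norm_coord Q hs0 hts hsd]
    congr 1
    field_simp
    ring
  let P : Matrix J J ℝ := Matrix.of fun j i => L j (b i : E)
  let R : Matrix J J ℝ := Matrix.of fun j k => Rr j (bD b k)
  have hRP : Rᵀ * P = 1 := by
    ext k i
    rw [Matrix.mul_apply]
    simp only [Matrix.transpose_apply, R, P, Matrix.of_apply]
    simp_rw [mul_comm (Rr _ _)]
    rw [hLR]
    unfold trR
    rw [trace_bD, Matrix.one_apply]
    split_ifs with h1 h2 h2
    · simp
    · exact absurd h1.symm h2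
    · exact absurd h2.symm h1
    · simp
  have hmulP : ∀ (m : J → ℤ) (j : J), (P *ᵥ zv m) j = L j (eqO b m : E) := by
    intro m j
    rw [eqO_apply, map_sum]
    refine Finset.sum_congr rfl fun i _ => ?_
    simp only [P, Matrix.of_apply, zv]
    rw [← zsmul_eq_mul, map_zsmul, zsmul_eq_mul, mul_comm]
  have hmulR : ∀ (k : J → ℤ) (j : J), (R *ᵥ zv k) j = Rr j (eqD b k : E) := by
    intro m j
    rw [eqD_apply, map_sum]
    refine Finset.sum_congr rfl fun i _ => ?_
    simp only [R, Matrix.of_apply, zv]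
    rw [← zsmul_eq_mul, map_zsmul, zsmul_eq_mul, mul_comm]
  -- periodicity
  obtain ⟨N1, hN1, hp1⟩ := exists_per Q 1 one_ne_zero ω
  obtain ⟨M, hM, hMd⟩ := exists_dual_denom b
  obtain ⟨N2, hN2, hp2⟩ := exists_per Q M hM ω⁻¹
  have hN : N1 * N2 ≠ 0 := mul_ne_zero hN1 hN2
  set f : 𝓞 E → ℂ := fun ξ => eQ (Algebra.trace ℚ F (ω * Algebra.norm F (ξ : E))) with hf
  set g : dualL E → ℂ := fun η => eQ (-Algebra.trace ℚ F (Algebra.norm F (η : E) / ω)) with hg
  have hfper : ∀ x y : 𝓞 E, f (x + (N1 * N2) • y) = f x := by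
    intro x y
    obtain ⟨n, hn⟩ := hp1 x (N2 * y) (by simpa using x.isIntegral_coe)
      (by
        have := (isIntegral_natCast (R := ℤ) (B := E) N2).mul y.isIntegral_coe
        simpa using this)
    simp only [hf]
    have e : ((x + (N1 * N2) • y : 𝓞 E) : E) = (x : E) + N1 * (N2 * y) := by
      rw [nsmul_eq_mul]
      change algebraMap (𝓞 E) E _ = _
      rw [map_add, map_mul, map_natCast]
      push_cast; ring
    rw [e, hn, eQ_add_int]
  have hgper : ∀ x y : dualL E, g (x + (N1 * N2) • y) = g x := by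
    intro x y
    obtain ⟨n, hn⟩ := hp2 x (N1 * y) (hMd x x.2)
      (by
        have := (isIntegral_natCast (R := ℤ) (B := E) N1).mul (hMd y y.2)
        have e : (M : E) * (N1 * y) = N1 * (M * y) := by ring
        rwa [e])
    simp only [hg]
    have e : ((x + (N1 * N2) • y : dualL E) : E) = (x : E) + N2 * (N1 * y) := by
      rw [AddSubgroup.coe_add, AddSubgroup.coe_nsmul, nsmul_eq_mul]
      push_cast; ring
    rw [e, div_eq_mul_inv, mul_comm (Algebra.norm F _), hn, div_eq_mul_inv,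
      mul_comm (Algebra.norm F _), neg_add]
    have := eQ_add_int (-(Algebra.trace ℚ F (ω⁻¹ * Algebra.norm F (x : E)))) (-n)
    push_cast at this
    exact this
  have : NeZero (N1 * N2) := ⟨hN⟩
  have hp1' := Per.of_eq (eqO b) hfper
  have hp2' := Per.of_eq (eqD b) hgper
  obtain ⟨ip1, -⟩ := mean_eq_sum hp1'
  obtain ⟨ip2, -⟩ := mean_eq_sum hp2'
  have if1 : IsPer f := by
    have h1 := ip1.comp (eqO b).symm.toAddMonoidHom
    have h2 : (f ∘ eqO b) ∘ (eqO b).symm.toAddMonoidHom = f := by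
      funext x; simp
    rwa [h2] at h1
  have ig1 : IsPer g := by
    have h1 := ip2.comp (eqD b).symm.toAddMonoidHom
    have h2 : (g ∘ eqD b) ∘ (eqD b).symm.toAddMonoidHom = g := by
      funext x; simp
    rwa [h2] at h1
  refine ⟨if1, ig1, ?_⟩
  have hmean1 : mean (f ∘ eqO b) = mean f :=
    mean_comp if1 (eqO b).toAddMonoidHom (eqO b).surjective
  have hmean2 : mean (g ∘ eqD b) = mean g :=
    mean_comp ig1 (eqD b).toAddMonoidHom (eqD b).surjective
  have hcne : ∀ j, c j ≠ 0 := by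
    rintro (j | j)
    · exact B1.hc j
    · exact B2.hc j
  have hmain := gauss_recip hRP hcne (φ := f ∘ eqO b) (φ' := g ∘ eqD b)
    (fun m => by
      simp only [Function.comp_apply, hf]
      simp_rw [hmulP]
      rw [hL2]
      rfl)
    (fun k => by
      simp only [Function.comp_apply, hg]
      simp_rw [hmulR]
      rw [hR2]
      unfold eQ trR
      congr 1
      push_cast
      ring) hp1' hp2'
  rw [hmean1, hmean2] at hmain
  rw [hmain]
  have hK : 0 < (∏ j, 2 * |c j|) * |R.det|⁻¹ := by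
    refine mul_pos (Finset.prod_pos fun j _ => mul_pos two_pos (abs_pos.mpr (hcne j)))
      (inv_pos.mpr (abs_pos.mpr ?_))
    intro h0
    have := congrArg Matrix.det hRP
    rw [Matrix.det_mul, Matrix.det_transpose, h0, zero_mul, Matrix.det_one] at this
    exact zero_ne_one this
  have hprod : PosRel (∏ j, (Complex.I / (2 * c j)) ^ (1 / 2 : ℂ)) (Gam d ω) := by
    change PosRel (∏ j : J0 F ⊕ J0 F, gc (c j)) _
    rw [Fintype.prod_sum_type]
    unfold Gam
    rw [Finset.prod_mul_distrib]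
    exact B1.hprod.mul B2.hprod
  exact (PosRel.mul (PosRel.trans ⟨_, hK, rfl⟩ hprod) (PosRel.refl _))

end main

end Fermat.Agent.LT.Recip
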