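import Mathlib

/-!
# Means of periodic functions on abelian groups
-/

set_option autoImplicit false

open Finset

namespace Fermat.Agent.LT.Recip

section pmean

variable {G : Type*} [AddCommGroup G]

/-- `f` is invariant under the subgroup `H`. -/
def Per (H : AddSubgroup G) (f : G → ℂ) : Prop := ∀ g, ∀ h ∈ H, f (g + h) = f g

/-- the function on the quotient -/
noncomputable def Per.lift {H : AddSubgroup G} {f : G → ℂ} (hf : Per H f) : G ⧸ H → ℂ :=
  fun q => Quotient.liftOn' q f fun a b h => by
    have h1 : -a + b ∈ H := QuotientAddGroup.leftRel_apply.mp h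
    have := hf a (-a + b) h1
    rw [← this]; congr 1; abel

@[simp] theorem Per.lift_mk {H : AddSubgroup G} {f : G → ℂ} (hf : Per H f) (g : G) :
    hf.lift (g : G ⧸ H) = f g := rfl

/-- The mean over `G/H` of an `H`-periodic function. -/
noncomputable def pmean (H : AddSubgroup G) (f : G → ℂ) : ℂ :=
  (∑ᶠ q : G ⧸ H, f q.out) / (Nat.card (G ⧸ H) : ℂ)

theorem Per.out_eq {H : AddSubgroup G} {f : G → ℂ} (hf : Per H f) (g : G) :
    f (Quotient.out (g : G ⧸ H)) = f g := by
  obtain ⟨h, hh⟩ := QuotientAddGroup.mk_out_eq_add H g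
  rw [hh, hf g h h.2]

theorem pmean_eq_lift {H : AddSubgroup G} {f : G → ℂ} (hf : Per H f) :
    pmean H f = (∑ᶠ q : G ⧸ H, hf.lift q) / (Nat.card (G ⧸ H) : ℂ) := by
  unfold pmean
  congr 1
  refine finsum_congr fun q => ?_
  induction q using QuotientAddGroup.induction_on with
  | H g => rw [hf.out_eq, hf.lift_mk]

/-- mean of the pullback by a surjective homomorphism to a finite group. -/
theorem pmean_comp_surj {G' : Type*} [AddCommGroup G'] {H : AddSubgroup G} [H.FiniteIndex]
    {f : G → ℂ} (hf : Per H f) (π : G' →+ G) (hπ : Function.Surjective π)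
    {H' : AddSubgroup G'} [H'.FiniteIndex] (hH : H' ≤ H.comap π) :
    pmean H' (f ∘ π) = pmean H f := by
  classical
  have hf' : Per H' (f ∘ π) := fun g h hh => by
    simp only [Function.comp_apply, map_add]
    exact hf _ _ (hH hh)
  rw [pmean_eq_lift hf, pmean_eq_lift hf']
  let P : (G' ⧸ H') →+ (G ⧸ H) := QuotientAddGroup.map H' H π hH
  have hP : Function.Surjective P := by
    intro q
    induction q using QuotientAddGroup.induction_on with
    | H g => obtain ⟨g', rfl⟩ := hπ g; exact ⟨(g' : G' ⧸ H'), rfl⟩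
  have : Finite (G' ⧸ H') := AddSubgroup.finite_quotient_of_finiteIndex
  have : Finite (G ⧸ H) := AddSubgroup.finite_quotient_of_finiteIndex
  have := Fintype.ofFinite (G' ⧸ H')
  have := Fintype.ofFinite (G ⧸ H)
  have h1 : ∀ q' : G' ⧸ H', hf'.lift q' = hf.lift (P q') := by
    intro q'
    induction q' using QuotientAddGroup.induction_on with
    | H g => rfl
  rw [finsum_eq_sum_of_fintype, finsum_eq_sum_of_fintype]
  simp_rw [h1]
  have hcard : ∀ q : G ⧸ H, #{q' : G' ⧸ H' | P q' = q} = Nat.card P.ker := by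
    intro q
    obtain ⟨q0, rfl⟩ := hP q
    rw [Nat.card_eq_fintype_card, Fintype.card_subtype]
    refine Finset.card_bij (fun a _ => a - q0) ?_ ?_ ?_
    · intro a ha
      simp only [mem_filter, mem_univ, true_and] at ha ⊢
      rw [AddMonoidHom.mem_ker, map_sub, ha, sub_self]
    · intro a _ b _ h
      exact sub_left_injective h
    · intro b hb
      simp only [mem_filter, mem_univ, true_and] at hb
      rw [AddMonoidHom.mem_ker] at hb
      exact ⟨b + q0, by simp [hb], by simp⟩
  have h2 : ∑ q' : G' ⧸ H', hf.lift (P q') = (Nat.card P.ker : ℂ) * ∑ q : G ⧸ H, hf.lift q := by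
    rw [← Finset.sum_fiberwise (s := univ) (g := fun q' => P q'), Finset.mul_sum]
    refine Finset.sum_congr rfl fun q _ => ?_
    rw [← hcard q, ← nsmul_eq_mul, ← Finset.sum_const]
    refine Finset.sum_congr rfl fun q' hq' => ?_
    rw [(Finset.mem_filter.mp hq').2]
  have h3 : Nat.card (G' ⧸ H') = Nat.card P.ker * Nat.card (G ⧸ H) := by
    rw [← Nat.card_congr (QuotientAddGroup.quotientKerEquivOfSurjective P hP).toEquiv, mul_comm]
    exact AddSubgroup.card_eq_card_quotient_mul_card_addSubgroup _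
  rw [h2, h3]
  have h4 : (Nat.card P.ker : ℂ) ≠ 0 := by
    have : Nat.card P.ker ≠ 0 := Nat.card_pos.ne'
    exact_mod_cast this
  push_cast
  rw [mul_div_mul_left _ _ h4]

theorem pmean_mono {H H' : AddSubgroup G} [H.FiniteIndex] [H'.FiniteIndex] (h : H' ≤ H)
    {f : G → ℂ} (hf : Per H f) : pmean H' f = pmean H f :=
  pmean_comp_surj hf (AddMonoidHom.id G) Function.surjective_id h

end pmean

section mean

variable {G : Type*} [AddCommGroup G]

instance finiteIndex_comap {G' : Type*} [AddCommGroup G'] (H : AddSubgroup G) [H.FiniteIndex]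
    (π : G' →+ G) : (H.comap π).FiniteIndex := by
  refine ⟨?_⟩
  rw [AddSubgroup.index_comap]
  exact (AddSubgroup.isFiniteRelIndex_of_finiteIndex (H := H) (K := π.range)).relIndex_ne_zero

/-- `f` is periodic for some subgroup of finite index. -/
def IsPer (f : G → ℂ) : Prop := ∃ H : AddSubgroup G, H.FiniteIndex ∧ Per H f

open Classical in
/-- The mean of a periodic function. -/
noncomputable def mean (f : G → ℂ) : ℂ :=
  if h : IsPer f then pmean h.choose f else 0

theorem mean_eq {f : G → ℂ} (H : AddSubgroup G) [hH : H.FiniteIndex] (hf : Per H f) :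
    mean f = pmean H f := by
  have h : IsPer f := ⟨H, hH, hf⟩
  rw [mean, dif_pos h]
  obtain ⟨h1, h2⟩ := h.choose_spec
  have := h1
  have h3 : Per (H ⊓ h.choose) f := fun g k hk => hf g k hk.1
  rw [← pmean_mono (inf_le_left : H ⊓ h.choose ≤ H) hf,
    ← pmean_mono (inf_le_right : H ⊓ h.choose ≤ h.choose) h2]

theorem IsPer.comp {G' : Type*} [AddCommGroup G'] {f : G → ℂ} (hf : IsPer f) (π : G' →+ G) :
    IsPer (f ∘ π) := by
  obtain ⟨H, h1, h2⟩ := hf
  refine ⟨H.comap π, inferInstance, fun g h hh => ?_⟩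
  simp only [Function.comp_apply, map_add]
  exact h2 _ _ hh

/-- Means are invariant under surjective pullback. -/
theorem mean_comp {G' : Type*} [AddCommGroup G'] {f : G → ℂ} (hf : IsPer f) (π : G' →+ G)
    (hπ : Function.Surjective π) : mean (f ∘ π) = mean f := by
  obtain ⟨H, h1, h2⟩ := hf
  have h3 : Per (H.comap π) (f ∘ π) := fun g h hh => by
    simp only [Function.comp_apply, map_add]
    exact h2 _ _ hh
  rw [mean_eq (H.comap π) h3, mean_eq H h2]
  exact pmean_comp_surj h2 π hπ le_rfl

theorem IsPer.add {f g : G → ℂ} (hf : IsPer f) (hg : IsPer g) : IsPer (fun x => f x + g x) := by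
  obtain ⟨H, h1, h2⟩ := hf
  obtain ⟨H', h1', h2'⟩ := hg
  exact ⟨H ⊓ H', inferInstance, fun x k hk => by simp only [h2 x k hk.1, h2' x k hk.2]⟩

theorem IsPer.mul {f g : G → ℂ} (hf : IsPer f) (hg : IsPer g) : IsPer (fun x => f x * g x) := by
  obtain ⟨H, h1, h2⟩ := hf
  obtain ⟨H', h1', h2'⟩ := hg
  exact ⟨H ⊓ H', inferInstance, fun x k hk => by simp only [h2 x k hk.1, h2' x k hk.2]⟩

theorem IsPer.const (c : ℂ) : IsPer (fun _ : G => c) :=
  ⟨⊤, inferInstance, fun _ _ _ => rfl⟩

theorem pmean_eq_sum {H : AddSubgroup G} [H.FiniteIndex] [Fintype (G ⧸ H)] (f : G → ℂ) :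
    pmean H f = (∑ q : G ⧸ H, f q.out) / (Fintype.card (G ⧸ H) : ℂ) := by
  rw [pmean, finsum_eq_sum_of_fintype, Nat.card_eq_fintype_card]

theorem mean_const (c : ℂ) : mean (fun _ : G => c) = c := by
  rw [mean_eq ⊤ fun _ _ _ => rfl]
  have : Fintype (G ⧸ (⊤ : AddSubgroup G)) := Fintype.ofFinite _
  rw [pmean_eq_sum, Finset.sum_const, Finset.card_univ, nsmul_eq_mul, mul_comm, mul_div_assoc,
    div_self, mul_one]
  exact_mod_cast Fintype.card_ne_zero

theorem mean_add {f g : G → ℂ} (hf : IsPer f) (hg : IsPer g) :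
    mean (fun x => f x + g x) = mean f + mean g := by
  obtain ⟨H, h1, h2⟩ := hf
  obtain ⟨H', h1', h2'⟩ := hg
  have a1 : Per (H ⊓ H') f := fun x k hk => h2 x k hk.1
  have a2 : Per (H ⊓ H') g := fun x k hk => h2' x k hk.2
  have a3 : Per (H ⊓ H') (fun x => f x + g x) := fun x k hk => by
    simp only [h2 x k hk.1, h2' x k hk.2]
  have : Finite (G ⧸ (H ⊓ H')) := AddSubgroup.finite_quotient_of_finiteIndex
  have : Fintype (G ⧸ (H ⊓ H')) := Fintype.ofFinite _
  rw [mean_eq _ a1, mean_eq _ a2, mean_eq _ a3, pmean_eq_sum, pmean_eq_sum, pmean_eq_sum,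
    Finset.sum_add_distrib, add_div]

theorem mean_const_mul (c : ℂ) {f : G → ℂ} (hf : IsPer f) :
    mean (fun x => c * f x) = c * mean f := by
  obtain ⟨H, h1, h2⟩ := hf
  have a3 : Per H (fun x => c * f x) := fun x k hk => by simp only [h2 x k hk]
  have : Finite (G ⧸ H) := AddSubgroup.finite_quotient_of_finiteIndex
  have : Fintype (G ⧸ H) := Fintype.ofFinite _
  rw [mean_eq _ h2, mean_eq _ a3, pmean_eq_sum, pmean_eq_sum, ← Finset.mul_sum, mul_div_assoc]

theorem IsPer.sum {ι : Type*} (s : Finset ι) {f : ι → G → ℂ} (hf : ∀ i ∈ s, IsPer (f i)) :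
    IsPer (fun x => ∑ i ∈ s, f i x) := by
  classical
  induction s using Finset.induction_on with
  | empty => simpa using IsPer.const 0
  | insert i s hi ih =>
    simp_rw [Finset.sum_insert hi]
    exact (hf i (Finset.mem_insert_self _ _)).add
      (ih fun j hj => hf j (Finset.mem_insert_of_mem hj))

theorem mean_sum {ι : Type*} (s : Finset ι) {f : ι → G → ℂ} (hf : ∀ i ∈ s, IsPer (f i)) :
    mean (fun x => ∑ i ∈ s, f i x) = ∑ i ∈ s, mean (f i) := by
  classical
  induction s using Finset.induction_on with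
  | empty => simpa using mean_const (G := G) 0
  | insert i s hi ih =>
    simp_rw [Finset.sum_insert hi]
    rw [mean_add (hf i (Finset.mem_insert_self _ _))
      (IsPer.sum s fun j hj => hf j (Finset.mem_insert_of_mem hj)),
      ih fun j hj => hf j (Finset.mem_insert_of_mem hj)]

theorem IsPer.translate {f : G → ℂ} (hf : IsPer f) (a : G) : IsPer (fun x => f (x + a)) := by
  obtain ⟨H, h1, h2⟩ := hf
  exact ⟨H, h1, fun x k hk => by
    have := h2 (x + a) k hk
    rwa [show x + a + k = x + k + a by abel] at this⟩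

theorem mean_translate {f : G → ℂ} (hf : IsPer f) (a : G) :
    mean (fun x => f (x + a)) = mean f := by
  obtain ⟨H, h1, h2⟩ := hf
  have h3 : Per H (fun x => f (x + a)) := fun x k hk => by
    have := h2 (x + a) k hk
    rwa [show x + a + k = x + k + a by abel] at this
  have : Finite (G ⧸ H) := AddSubgroup.finite_quotient_of_finiteIndex
  have : Fintype (G ⧸ H) := Fintype.ofFinite _
  rw [mean_eq _ h2, mean_eq _ h3, pmean_eq_lift h2, pmean_eq_lift h3,
    finsum_eq_sum_of_fintype, finsum_eq_sum_of_fintype]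
  congr 1
  refine Fintype.sum_equiv (Equiv.addRight (a : G ⧸ H)) _ _ fun q => ?_
  induction q using QuotientAddGroup.induction_on with
  | H g => rfl

/-- The mean of a function multiplied by a nontrivial constant under a translation vanishes. -/
theorem mean_eq_zero {f : G → ℂ} (hf : IsPer f) {a : G} {c : ℂ} (hc : c ≠ 1)
    (h : ∀ x, f (x + a) = c * f x) : mean f = 0 := by
  have h1 := mean_translate hf a
  simp_rw [h] at h1
  rw [mean_const_mul c hf] at h1
  have h2 : (c - 1) * mean f = 0 := by rw [sub_mul, h1]; ring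
  exact (mul_eq_zero.mp h2).resolve_left (sub_ne_zero.mpr hc)

/-- Means on finite groups. -/
theorem mean_finite {A : Type*} [AddCommGroup A] [Fintype A] (φ : A → ℂ) :
    mean φ = (∑ a, φ a) / (Fintype.card A : ℂ) := by
  have hb : (⊥ : AddSubgroup A).FiniteIndex := ⟨by
    rw [AddSubgroup.index_bot]; exact Nat.card_pos.ne'⟩
  have hp : Per (⊥ : AddSubgroup A) φ := fun g h hh => by
    rw [AddSubgroup.mem_bot.mp hh, add_zero]
  rw [mean_eq ⊥ hp, pmean_eq_lift hp, ← Nat.card_eq_fintype_card (α := A)]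
  rw [Nat.card_congr (QuotientAddGroup.quotientBot (G := A)).toEquiv]
  congr 1
  have : Fintype (A ⧸ (⊥ : AddSubgroup A)) := Fintype.ofFinite _
  rw [finsum_eq_sum_of_fintype]
  refine Fintype.sum_equiv (QuotientAddGroup.quotientBot (G := A)).toEquiv _ _ fun q => ?_
  induction q using QuotientAddGroup.induction_on with
  | H g => rfl

theorem isPer_finite {A : Type*} [AddCommGroup A] [Finite A] (φ : A → ℂ) : IsPer φ :=
  ⟨⊥, ⟨by rw [AddSubgroup.index_bot]; exact Nat.card_pos.ne'⟩, fun g h hh => by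
    rw [AddSubgroup.mem_bot.mp hh, add_zero]⟩

/-- Means over products. -/
theorem mean_prod {G' : Type*} [AddCommGroup G'] {f : G → ℂ} {g : G' → ℂ} (hf : IsPer f)
    (hg : IsPer g) : mean (fun x : G × G' => f x.1 * g x.2) = mean f * mean g := by
  obtain ⟨H, h1, h2⟩ := hf
  obtain ⟨H', h1', h2'⟩ := hg
  have a1 : Per (H.prod H') (fun x : G × G' => f x.1 * g x.2) := fun x k hk => by
    simp only [Prod.fst_add, Prod.snd_add, h2 x.1 k.1 hk.1, h2' x.2 k.2 hk.2]
  have : Finite (G ⧸ H) := AddSubgroup.finite_quotient_of_finiteIndex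
  have : Finite (G' ⧸ H') := AddSubgroup.finite_quotient_of_finiteIndex
  have : Fintype (G ⧸ H) := Fintype.ofFinite _
  have : Fintype (G' ⧸ H') := Fintype.ofFinite _
  let π : G × G' →+ (G ⧸ H) × (G' ⧸ H') :=
    AddMonoidHom.prodMap (QuotientAddGroup.mk' H) (QuotientAddGroup.mk' H')
  have hπ : Function.Surjective π := by
    rintro ⟨q, q'⟩
    obtain ⟨g, rfl⟩ := QuotientAddGroup.mk'_surjective H q
    obtain ⟨g', rfl⟩ := QuotientAddGroup.mk'_surjective H' q'
    exact ⟨(g, g'), rfl⟩
  have e1 : mean f = mean h2.lift := by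
    have : f = h2.lift ∘ (QuotientAddGroup.mk' H) := rfl
    conv_lhs => rw [this]
    exact mean_comp (isPer_finite _) _ (QuotientAddGroup.mk'_surjective H)
  have e2 : mean g = mean h2'.lift := by
    have : g = h2'.lift ∘ (QuotientAddGroup.mk' H') := rfl
    conv_lhs => rw [this]
    exact mean_comp (isPer_finite _) _ (QuotientAddGroup.mk'_surjective H')
  have e3 : mean (fun x : G × G' => f x.1 * g x.2) =
      mean (fun x : (G ⧸ H) × (G' ⧸ H') => h2.lift x.1 * h2'.lift x.2) := by
    have : (fun x : G × G' => f x.1 * g x.2) =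
        (fun x : (G ⧸ H) × (G' ⧸ H') => h2.lift x.1 * h2'.lift x.2) ∘ π := rfl
    rw [this]
    exact mean_comp (isPer_finite _) π hπ
  rw [e1, e2, e3, mean_finite, mean_finite, mean_finite, Fintype.sum_prod_type, Fintype.card_prod,
    div_mul_div_comm, Finset.sum_mul_sum]
  push_cast
  rfl

/-- Fubini: averaging first over a subgroup. -/
theorem mean_subgroup {f : G → ℂ} (hf : IsPer f) (K : AddSubgroup G) :
    mean f = mean (fun g => mean (fun k : K => f (g + k))) := by
  obtain ⟨H, h1, h2⟩ := hf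
  have hHK : (H.addSubgroupOf K).FiniteIndex := inferInstance
  have : Finite (K ⧸ H.addSubgroupOf K) := AddSubgroup.finite_quotient_of_finiteIndex
  have : Fintype (K ⧸ H.addSubgroupOf K) := Fintype.ofFinite _
  have h3 : ∀ g, Per (H.addSubgroupOf K) (fun k : K => f (g + k)) := fun g k h hh => by
    have := h2 (g + k) h (AddSubgroup.mem_addSubgroupOf.mp hh)
    simp only [AddSubgroup.coe_add, ← add_assoc, this]
  have h4 : (fun g => mean (fun k : K => f (g + k))) = fun g =>
      ((Fintype.card (K ⧸ H.addSubgroupOf K) : ℂ))⁻¹ *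
        ∑ q : K ⧸ H.addSubgroupOf K, f (g + (q.out : K)) := by
    funext g
    rw [mean_eq _ (h3 g), pmean_eq_sum, div_eq_inv_mul]
  have hf : IsPer f := ⟨H, h1, h2⟩
  rw [h4, mean_const_mul _ (IsPer.sum _ fun q _ => hf.translate _),
    mean_sum _ fun q _ => hf.translate _]
  simp_rw [mean_translate hf]
  rw [Finset.sum_const, Finset.card_univ, nsmul_eq_mul, ← mul_assoc, inv_mul_cancel₀, one_mul]
  exact_mod_cast Fintype.card_ne_zero

open Classical in
/-- Mean of a function supported on a subgroup. -/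
theorem mean_indicator {f : G → ℂ} (hf : IsPer f) (K : AddSubgroup G) [K.FiniteIndex] :
    mean (fun g => if g ∈ K then f g else 0) = (K.index : ℂ)⁻¹ * mean (fun k : K => f k) := by
  obtain ⟨H, h1, h2⟩ := hf
  set L := H ⊓ K with hL
  have hLf : Per L f := fun g h hh => h2 g h hh.1
  have hLi : Per L (fun g => if g ∈ K then f g else 0) := fun g h hh => by
    simp only [hLf g h hh]
    rw [K.add_mem_cancel_right hh.2]
  have hLK : Per (L.addSubgroupOf K) (fun k : K => f k) := fun k h hh => by
    have := hLf k h (AddSubgroup.mem_addSubgroupOf.mp hh)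
    simpa using this
  have : Finite (G ⧸ L) := AddSubgroup.finite_quotient_of_finiteIndex
  have : Finite (K ⧸ L.addSubgroupOf K) := AddSubgroup.finite_quotient_of_finiteIndex
  have : Fintype (G ⧸ L) := Fintype.ofFinite _
  have : Fintype (K ⧸ L.addSubgroupOf K) := Fintype.ofFinite _
  rw [mean_eq _ hLi, mean_eq _ hLK, pmean_eq_lift hLi, pmean_eq_lift hLK,
    finsum_eq_sum_of_fintype, finsum_eq_sum_of_fintype]
  let ι : (K ⧸ L.addSubgroupOf K) →+ G ⧸ L :=
    QuotientAddGroup.map (L.addSubgroupOf K) L K.subtype fun x hx => hx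
  have hι : Function.Injective ι := by
    rw [injective_iff_map_eq_zero]
    intro q hq
    induction q using QuotientAddGroup.induction_on with
    | H k =>
      have h5 : ((k : G) : G ⧸ L) = 0 := hq
      rw [QuotientAddGroup.eq_zero_iff] at h5
      exact (QuotientAddGroup.eq_zero_iff _).mpr (AddSubgroup.mem_addSubgroupOf.mpr h5)
  have hsum : ∑ q : G ⧸ L, hLi.lift q = ∑ q : K ⧸ L.addSubgroupOf K, hLK.lift q := by
    symm
    refine Finset.sum_of_injOn ι hι.injOn (fun _ _ => Finset.mem_coe.mpr (Finset.mem_univ _))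
      ?_ ?_
    · intro q _ hq
      induction q using QuotientAddGroup.induction_on with
      | H g =>
        rw [Per.lift_mk]
        rw [if_neg]
        intro hg
        exact hq ⟨((⟨g, hg⟩ : K) : K ⧸ L.addSubgroupOf K), by simp, rfl⟩
    · intro q _
      induction q using QuotientAddGroup.induction_on with
      | H k =>
        change f k = if (k : G) ∈ K then f k else 0
        rw [if_pos k.2]
  have hcard : Nat.card (G ⧸ L) = K.index * Nat.card (K ⧸ L.addSubgroupOf K) := by
    have h6 := AddSubgroup.relIndex_mul_index (show L ≤ K from inf_le_right)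
    rw [mul_comm]
    exact h6.symm
  rw [hsum, hcard]
  push_cast
  have h7 : (K.index : ℂ) ≠ 0 := by exact_mod_cast AddSubgroup.FiniteIndex.index_ne_zero
  field_simp

end mean

end Fermat.Agent.LT.Recip
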