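import Fermat.Agent.LT.I.PoissonExp
import Fermat.Agent.LT.Recip.Mean

/-!
# Reciprocity of Gaussian sums via the theta function
-/

set_option autoImplicit false
set_option linter.unusedSectionVars false

open MeasureTheory Set Filter Topology Matrix
open scoped Real

namespace Fermat.Agent.LT.Recip

open Fermat.Agent.LT.I

variable {J : Type} [Fintype J] [DecidableEq J]

/-- The Gaussian. -/
noncomputable def qe (β : J → ℂ) (y : J → ℝ) : ℂ :=
  Complex.exp (-(π * ∑ j, β j * (y j : ℂ) ^ 2))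

theorem continuous_qe (β : J → ℂ) : Continuous (qe β) := by
  unfold qe; fun_prop

theorem norm_qe (β : J → ℂ) (y : J → ℝ) :
    ‖qe β y‖ = Real.exp (-(π * ∑ j, (β j).re * y j ^ 2)) := by
  unfold qe
  rw [Complex.norm_exp]
  congr 1
  rw [Complex.neg_re, Complex.re_ofReal_mul, Complex.re_sum]
  congr 3
  funext j
  rw [← Complex.ofReal_pow, Complex.re_mul_ofReal]

theorem norm_qe_le {β : J → ℂ} {b : ℝ} (hb : 0 < b) (h : ∀ j, b ≤ (β j).re) (y : J → ℝ) :
    ‖qe β y‖ ≤ Real.exp (Fintype.card J / (4 * π * b)) * Real.exp (-∑ j, |y j|) := by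
  rw [norm_qe, ← Real.exp_add, Real.exp_le_exp]
  have h1 : (Fintype.card J : ℝ) / (4 * π * b) = ∑ _j : J, 1 / (4 * π * b) := by
    simp [Finset.sum_const, div_eq_mul_inv]
  rw [h1, Finset.mul_sum, ← Finset.sum_neg_distrib, ← Finset.sum_neg_distrib,
    ← Finset.sum_add_distrib]
  refine Finset.sum_le_sum fun j _ => ?_
  have h2 : π * (b * y j ^ 2) ≤ π * ((β j).re * y j ^ 2) := by
    have := h j
    have := Real.pi_pos
    gcongr
  have h3 : 0 ≤ 4 * π * b * (π * (b * y j ^ 2) - |y j| + 1 / (4 * π * b)) := by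
    have e : 4 * π * b * (π * (b * y j ^ 2) - |y j| + 1 / (4 * π * b)) =
        (2 * π * b * |y j| - 1) ^ 2 := by
      have := Real.pi_pos
      field_simp
      rw [← sq_abs (y j)]
      ring
    rw [e]; positivity
  have h4 : 0 ≤ π * (b * y j ^ 2) - |y j| + 1 / (4 * π * b) := by
    have := Real.pi_pos
    exact nonneg_of_mul_nonneg_right h3 (by positivity)
  linarith

section sums

variable {P R : Matrix J J ℝ} (hRP : Rᵀ * P = 1)

include hRP

theorem exists_abs_le : ∃ K : ℝ, 0 < K ∧ ∀ x : J → ℝ, ∑ i, |x i| ≤ K * ∑ j, |(P *ᵥ x) j| := by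
  refine ⟨∑ i, ∑ j, |R j i| + 1, add_pos_of_nonneg_of_pos
    (Finset.sum_nonneg fun _ _ => Finset.sum_nonneg fun _ _ => abs_nonneg _) one_pos, fun x => ?_⟩
  have h1 : ∀ i, x i = ∑ j, R j i * (P *ᵥ x) j := by
    intro i
    have : x = Rᵀ *ᵥ (P *ᵥ x) := by rw [Matrix.mulVec_mulVec, hRP, Matrix.one_mulVec]
    conv_lhs => rw [this]
    rfl
  rw [add_mul, one_mul, Finset.sum_mul]
  refine (Finset.sum_le_sum fun i _ => ?_).trans
    (le_add_of_nonneg_right (Finset.sum_nonneg fun _ _ => abs_nonneg _))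
  rw [h1 i, Finset.sum_mul]
  refine (Finset.abs_sum_le_sum_abs _ _).trans (Finset.sum_le_sum fun j _ => ?_)
  rw [abs_mul]
  exact mul_le_mul_of_nonneg_left
    (Finset.single_le_sum (f := fun j => |(P *ᵥ x) j|) (fun _ _ => abs_nonneg _)
      (Finset.mem_univ j)) (abs_nonneg _)

theorem exists_bound {b : ℝ} (hb : 0 < b) : ∃ C c : ℝ, 0 < c ∧ ∀ β : J → ℂ, (∀ j, b ≤ (β j).re) →
    ∀ x : J → ℝ, ‖qe β (P *ᵥ x)‖ ≤ C * Real.exp (-(c * ∑ i, |x i|)) := by
  obtain ⟨K, hK, h⟩ := exists_abs_le hRP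
  refine ⟨Real.exp (Fintype.card J / (4 * π * b)), K⁻¹, inv_pos.mpr hK, fun β hβ x => ?_⟩
  refine (norm_qe_le hb hβ _).trans ?_
  refine mul_le_mul_of_nonneg_left ?_ (Real.exp_pos _).le
  rw [Real.exp_le_exp, neg_le_neg_iff, inv_mul_le_iff₀ hK]
  exact h x

theorem exists_min {β : J → ℂ} (hβ : ∀ j, 0 < (β j).re) : ∃ b : ℝ, 0 < b ∧ ∀ j, b ≤ (β j).re := by
  rcases isEmpty_or_nonempty J with h | h
  · exact ⟨1, one_pos, fun j => (h.false j).elim⟩
  · obtain ⟨j0, h0⟩ := Finite.exists_min fun j => (β j).re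
    exact ⟨_, hβ j0, h0⟩

theorem locBd_qe {β : J → ℂ} (hβ : ∀ j, 0 < (β j).re) : LocBd fun x => qe β (P *ᵥ x) := by
  obtain ⟨b, hb, h1⟩ := exists_min hRP hβ
  obtain ⟨C, c, hc, h⟩ := exists_bound hRP hb
  exact LocBd.of_exp hc (h β h1)

/-- The Fourier transform of the Gaussian. -/
theorem ft_qe {β : J → ℂ} (hβ : ∀ j, 0 < (β j).re) (m : J → ℤ) :
    ft (fun x => qe β (P *ᵥ x)) m = (|P.det|⁻¹ : ℝ) * (∏ j, ((β j)⁻¹) ^ (1 / 2 : ℂ)) *
      qe (fun j => (β j)⁻¹) (R *ᵥ zv m) := by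
  have hdet : P.det ≠ 0 := by
    intro h0
    have := congrArg Matrix.det hRP
    rw [Matrix.det_mul, h0, mul_zero, Matrix.det_one] at this
    exact zero_ne_one this
  have hπ : (π : ℂ) ≠ 0 := by exact_mod_cast Real.pi_ne_zero
  set g : (J → ℝ) → ℂ := fun y => Complex.exp (-∑ j, (π * β j) * (y j : ℂ) ^ 2 +
    ∑ j, (-(2 * π * Complex.I * ((R *ᵥ zv m) j : ℂ))) * y j) with hg
  have h1 : ∀ x : J → ℝ, ex (-m) x * qe β (P *ᵥ x) = g (toLin' P x) := by
    intro x
    simp only [hg, ex, qe]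
    rw [← Complex.exp_add]
    congr 1
    rw [add_comm]
    congr 1
    · rw [Finset.mul_sum]
      congr 1
      refine Finset.sum_congr rfl fun j _ => ?_
      rw [toLin'_apply]; ring
    · have h2 : ∑ j, (R *ᵥ zv m) j * (P *ᵥ x) j = ∑ i, (m i : ℝ) * x i := by
        change (R *ᵥ zv m) ⬝ᵥ (P *ᵥ x) = zv m ⬝ᵥ x
        rw [Matrix.dotProduct_mulVec, Matrix.vecMul_mulVec, hRP, Matrix.vecMul_one]
      have h3 : ((∑ j, (R *ᵥ zv m) j * (P *ᵥ x) j : ℝ) : ℂ) = ((∑ i, (m i : ℝ) * x i : ℝ) : ℂ) := by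
        rw [h2]
      push_cast at h3
      have h4 : ∑ i, ((-m) i : ℂ) * (x i : ℂ) = -∑ i, (m i : ℂ) * (x i : ℂ) := by
        rw [← Finset.sum_neg_distrib]
        refine Finset.sum_congr rfl fun i _ => ?_
        simp
      rw [h4, ← h3, mul_neg, Finset.mul_sum, ← Finset.sum_neg_distrib]
      refine Finset.sum_congr rfl fun j _ => ?_
      rw [toLin'_apply]; ring
  unfold ft
  simp_rw [h1]
  have hcont : Continuous (toLin' P) := LinearMap.continuous_of_finiteDimensional _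
  have hgm : Continuous g := by rw [hg]; fun_prop
  have h5 : ∫ x, g (toLin' P x) = ∫ y, g y ∂(Measure.map (toLin' P) volume) :=
    (integral_map hcont.aemeasurable hgm.aestronglyMeasurable).symm
  rw [h5, Real.map_matrix_volume_pi_eq_smul_volume_pi hdet, integral_smul_measure]
  have h6 : ∫ y, g y = ∏ j, (π / (π * β j)) ^ (1 / 2 : ℂ) *
      Complex.exp ((-(2 * π * Complex.I * ((R *ᵥ zv m) j : ℂ))) ^ 2 / (4 * (π * β j))) := by
    refine GaussianFourier.integral_cexp_neg_sum_mul_add (fun j => ?_) _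
    rw [Complex.re_ofReal_mul]
    exact mul_pos Real.pi_pos (hβ j)
  rw [h6, Finset.prod_mul_distrib, ← Complex.exp_sum, Complex.real_smul, ← mul_assoc]
  congr 1
  · congr 1
    · rw [ENNReal.toReal_ofReal (abs_nonneg _), abs_inv]
    · refine Finset.prod_congr rfl fun j _ => ?_
      congr 1
      rw [div_mul_eq_div_div, div_self hπ, one_div]
  · unfold qe
    congr 1
    rw [Finset.mul_sum, ← Finset.sum_neg_distrib]
    refine Finset.sum_congr rfl fun j _ => ?_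
    have hβ0 : β j ≠ 0 := by
      intro h0; have := hβ j; rw [h0] at this; simp at this
    rw [neg_sq, mul_pow, mul_pow, mul_pow, Complex.I_sq]
    field_simp
    ring

end sums

theorem re_inv_pos {z : ℂ} (hz : 0 < z.re) : 0 < (z⁻¹).re := by
  rw [Complex.inv_re]
  refine div_pos hz (Complex.normSq_pos.mpr ?_)
  intro h0; rw [h0] at hz; simp at hz

section theta

variable {P R : Matrix J J ℝ}

theorem transpose_swap (hRP : Rᵀ * P = 1) : Pᵀ * R = 1 := by
  have := congrArg Matrix.transpose hRP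
  rwa [Matrix.transpose_mul, Matrix.transpose_transpose, Matrix.transpose_one] at this

theorem summable_qe (hRP : Rᵀ * P = 1) {β : J → ℂ} (hβ : ∀ j, 0 < (β j).re) (s : J → ℝ) :
    Summable fun m : J → ℤ => qe β (P *ᵥ (s + zv m)) :=
  (locBd_qe hRP hβ).summable s

/-- The theta transformation formula. -/
theorem theta (hRP : Rᵀ * P = 1) {β : J → ℂ} (hβ : ∀ j, 0 < (β j).re) (s : J → ℝ) :
    ∑' m : J → ℤ, qe β (P *ᵥ (s + zv m)) =
      (|P.det|⁻¹ : ℝ) * (∏ j, ((β j)⁻¹) ^ (1 / 2 : ℂ)) *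
        ∑' m : J → ℤ, qe (fun j => (β j)⁻¹) (R *ᵥ zv m) * ex m s := by
  have hPR := transpose_swap hRP
  have hβ' : ∀ j, 0 < ((β j)⁻¹).re := fun j => re_inv_pos (hβ j)
  have hs : Summable (ft fun x => qe β (P *ᵥ x)) := by
    have h1 : ft (fun x => qe β (P *ᵥ x)) = fun m => (|P.det|⁻¹ : ℝ) *
        (∏ j, ((β j)⁻¹) ^ (1 / 2 : ℂ)) * qe (fun j => (β j)⁻¹) (R *ᵥ zv m) :=
      funext fun m => ft_qe hRP hβ m
    rw [h1]
    refine Summable.mul_left _ ?_
    have h2 := summable_qe hPR hβ' 0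
    simpa only [zero_add] using h2
  have hcont : Continuous fun x : J → ℝ => qe β (P *ᵥ x) :=
    (continuous_qe β).comp (Continuous.matrix_mulVec continuous_const continuous_id)
  have h := hasSum_poisson hcont (locBd_qe hRP hβ) hs s
  rw [← h.tsum_eq, ← tsum_mul_left]
  refine tsum_congr fun m => ?_
  rw [ft_qe hRP hβ]
  ring

/-- Division with remainder on `ℤ^J`. -/
def dec (J : Type) (N : ℕ) [NeZero N] : (J → ℤ) ≃ (J → ZMod N) × (J → ℤ) where
  toFun m := (fun j => (m j : ZMod N), fun j => m j / N)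
  invFun p := fun j => ((p.1 j).val : ℤ) + N * p.2 j
  left_inv m := by
    funext j
    simp only [ZMod.val_intCast]
    exact Int.emod_add_mul_ediv _ _
  right_inv p := by
    have hN : (0 : ℤ) < N := by exact_mod_cast Nat.pos_of_ne_zero (NeZero.ne N)
    ext j
    · simp
    · change (((p.1 j).val : ℤ) + N * p.2 j) / N = p.2 j
      have h1 : ((p.1 j).val : ℤ) < N := by exact_mod_cast ZMod.val_lt (p.1 j)
      rw [Int.add_mul_ediv_left _ _ hN.ne', Int.ediv_eq_zero_of_lt (by positivity) h1, zero_add]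

theorem mean_eq_sum {N : ℕ} [NeZero N] {φ : (J → ℤ) → ℂ}
    (hφ : ∀ m k : J → ℤ, φ (m + fun j => N * k j) = φ m) :
    IsPer φ ∧ mean φ = (∑ r : J → ZMod N, φ fun j => ((r j).val : ℤ)) /
      ((N : ℂ) ^ Fintype.card J) := by
  let q : (J → ℤ) →+ (J → ZMod N) := (Int.castAddHom (ZMod N)).compLeft J
  have hq : Function.Surjective q := by
    intro r
    refine ⟨fun j => ((r j).val : ℤ), ?_⟩
    funext j
    simp [q]
  have h1 : φ = (fun r : J → ZMod N => φ fun j => ((r j).val : ℤ)) ∘ q := by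
    funext m
    have h2 := (dec J N).left_inv m
    conv_lhs => rw [← h2]
    exact hφ _ _
  refine ⟨?_, ?_⟩
  · rw [h1]
    exact (isPer_finite _).comp q
  conv_lhs => rw [h1, mean_comp (isPer_finite _) q hq, mean_finite]
  rw [Fintype.card_fun, ZMod.card]
  push_cast
  rfl

theorem real_mul_cpow {a : ℝ} (ha : 0 < a) (z : ℂ) (r : ℂ) :
    ((a : ℂ) * z) ^ r = (a : ℂ) ^ r * z ^ r := by
  rcases eq_or_ne z 0 with rfl | hz
  · rcases eq_or_ne r 0 with rfl | hr
    · simp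
    · simp [Complex.zero_cpow hr]
  · have ha' : (a : ℂ) ≠ 0 := by exact_mod_cast ha.ne'
    rw [Complex.cpow_def_of_ne_zero (mul_ne_zero ha' hz), Complex.cpow_def_of_ne_zero ha',
      Complex.cpow_def_of_ne_zero hz, ← Complex.exp_add, Complex.log_ofReal_mul ha hz,
      Complex.ofReal_log ha.le]
    congr 1
    ring

theorem tendsto_dual (hRP : Rᵀ * P = 1) {α : Type} {l : Filter α} {γ : α → J → ℂ}
    (h1 : ∀ j, Tendsto (fun t => (γ t j).re) l atTop) (s : J → ℝ) :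
    Tendsto (fun t => ∑' k : J → ℤ, qe (γ t) (R *ᵥ zv k) * ex k s) l (𝓝 1) := by
  classical
  have hPR := transpose_swap hRP
  obtain ⟨C, c, hc, hb⟩ := exists_bound hPR one_pos
  have h2 : ∑' k : J → ℤ, (if k = 0 then (1 : ℂ) else 0) = 1 := tsum_ite_eq _ _
  rw [← h2]
  refine tendsto_tsum_of_dominated_convergence
    (bound := fun k : J → ℤ => C * Real.exp (-(c * ∑ i, |(k i : ℝ)|)))
    ((summable_exp_pi hc).mul_left _) (fun k => ?_) ?_
  · by_cases hk : k = 0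
    · subst hk
      have h3 : ∀ t, qe (γ t) (R *ᵥ zv (0 : J → ℤ)) * ex 0 s = 1 := by
        intro t
        have h4 : zv (0 : J → ℤ) = 0 := by funext i; simp [zv]
        rw [h4, Matrix.mulVec_zero]
        simp [qe, ex]
      simp_rw [h3]
      rw [if_pos trivial]
      exact tendsto_const_nhds
    · rw [if_neg hk]
      have h5 : ∃ j0, (R *ᵥ zv k) j0 ≠ 0 := by
        by_contra hcon
        push Not at hcon
        have h6 : R *ᵥ zv k = 0 := funext hcon
        apply hk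
        have h7 : zv k = Pᵀ *ᵥ (R *ᵥ zv k) := by
          rw [Matrix.mulVec_mulVec, hPR, Matrix.one_mulVec]
        rw [h6, Matrix.mulVec_zero] at h7
        funext i
        have := congrFun h7 i
        simpa [zv] using this
      obtain ⟨j0, hj0⟩ := h5
      have h8 : ∀ᶠ t in l, ∀ j, 0 ≤ (γ t j).re :=
        eventually_all.mpr fun j => (h1 j).eventually_ge_atTop 0
      refine squeeze_zero_norm' (a := fun t => Real.exp (-(π * ((γ t j0).re *
        (R *ᵥ zv k) j0 ^ 2)))) ?_ ?_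
      · filter_upwards [h8] with t ht
        rw [norm_mul, norm_ex, mul_one, norm_qe, Real.exp_le_exp, neg_le_neg_iff]
        refine mul_le_mul_of_nonneg_left ?_ Real.pi_pos.le
        exact Finset.single_le_sum (f := fun j => (γ t j).re * (R *ᵥ zv k) j ^ 2)
          (fun j _ => mul_nonneg (ht j) (sq_nonneg _)) (Finset.mem_univ j0)
      · refine Real.tendsto_exp_neg_atTop_nhds_zero.comp ?_
        refine Tendsto.const_mul_atTop Real.pi_pos ?_
        exact (h1 j0).atTop_mul_const (by positivity)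
  · have h9 : ∀ᶠ t in l, ∀ j, 1 ≤ (γ t j).re :=
      eventually_all.mpr fun j => (h1 j).eventually_ge_atTop 1
    filter_upwards [h9] with t ht k
    rw [norm_mul, norm_ex, mul_one]
    exact hb (γ t) ht (zv k)

/-- Gaussian averages of periodic functions. -/
theorem tendsto_gauss (hRP : Rᵀ * P = 1) {N : ℕ} [NeZero N] {φ : (J → ℤ) → ℂ}
    (hφ : ∀ m k : J → ℤ, φ (m + fun j => N * k j) = φ m) {α : Type} {l : Filter α}
    {ε : α → J → ℂ} (h0 : ∀ᶠ t in l, ∀ j, 0 < (ε t j).re)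
    (h1 : ∀ j, Tendsto (fun t => ((ε t j)⁻¹).re) l atTop) :
    Tendsto (fun t => (∑' m : J → ℤ, φ m * qe (ε t) (P *ᵥ zv m)) /
      ∏ j, ((ε t j)⁻¹) ^ (1 / 2 : ℂ)) l (𝓝 ((|P.det|⁻¹ : ℝ) * mean φ)) := by
  have hN : (0 : ℝ) < N := by exact_mod_cast Nat.pos_of_ne_zero (NeZero.ne N)
  have hN' : (N : ℂ) ≠ 0 := by exact_mod_cast hN.ne'
  obtain ⟨-, hmean⟩ := mean_eq_sum hφ
  set s : (J → ZMod N) → J → ℝ := fun r j => ((r j).val : ℝ) / N with hs
  set T : α → (J → ZMod N) → ℂ := fun t r =>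
    ∑' k : J → ℤ, qe (fun j => ((N : ℂ) ^ 2 * ε t j)⁻¹) (R *ᵥ zv k) * ex k (s r) with hT
  have hT1 : ∀ r, Tendsto (fun t => T t r) l (𝓝 1) := by
    intro r
    refine tendsto_dual hRP (γ := fun t j => ((N : ℂ) ^ 2 * ε t j)⁻¹) (fun j => ?_) (s r)
    have h2 : ∀ t, (((N : ℂ) ^ 2 * ε t j)⁻¹).re = (N : ℝ)⁻¹ ^ 2 * ((ε t j)⁻¹).re := by
      intro t
      have h3 : ((N : ℂ) ^ 2 * ε t j)⁻¹ = (((N : ℝ)⁻¹ ^ 2 : ℝ) : ℂ) * (ε t j)⁻¹ := by
        rw [mul_inv]; push_cast; rw [inv_pow]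
      rw [h3, Complex.re_ofReal_mul]
    simp_rw [h2]
    exact (h1 j).const_mul_atTop (by positivity)
  have hlim : Tendsto (fun t => (|P.det|⁻¹ : ℝ) * ((∑ r : J → ZMod N,
      φ (fun j => ((r j).val : ℤ)) * T t r) / ((N : ℂ) ^ Fintype.card J))) l
      (𝓝 ((|P.det|⁻¹ : ℝ) * mean φ)) := by
    rw [hmean]
    refine Tendsto.const_mul _ (Tendsto.div_const ?_ _)
    refine tendsto_finsetSum _ fun r _ => ?_
    simpa using (hT1 r).const_mul (φ fun j => ((r j).val : ℤ))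
  refine hlim.congr' ?_
  filter_upwards [h0] with t ht
  -- boundedness of φ
  obtain ⟨B, hB⟩ : ∃ B : ℝ, ∀ m, ‖φ m‖ ≤ B := by
    obtain ⟨B, hB⟩ := (Set.finite_range fun r : J → ZMod N =>
      ‖φ fun j => ((r j).val : ℤ)‖).bddAbove
    refine ⟨B, fun m => ?_⟩
    have h2 := (dec J N).left_inv m
    have h3 : φ m = φ fun j => (((fun j => (m j : ZMod N)) j).val : ℤ) := by
      conv_lhs => rw [← h2]
      exact hφ _ _
    rw [h3]
    exact hB ⟨_, rfl⟩
  have hsum : Summable fun m : J → ℤ => φ m * qe (ε t) (P *ᵥ zv m) := by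
    have h3 := (summable_qe hRP ht 0).norm
    simp only [zero_add] at h3
    refine Summable.of_norm_bounded (h3.mul_left B) fun m => ?_
    rw [norm_mul]
    exact mul_le_mul_of_nonneg_right (hB m) (norm_nonneg _)
  have hsum' : Summable fun p : (J → ZMod N) × (J → ℤ) =>
      φ ((dec J N).symm p) * qe (ε t) (P *ᵥ zv ((dec J N).symm p)) :=
    ((dec J N).symm.summable_iff (f := fun m : J → ℤ => φ m * qe (ε t) (P *ᵥ zv m))).mpr hsum
  have h4 : ∑' m : J → ℤ, φ m * qe (ε t) (P *ᵥ zv m) =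
      ∑ r : J → ZMod N, ∑' k : J → ℤ, φ ((dec J N).symm (r, k)) *
        qe (ε t) (P *ᵥ zv ((dec J N).symm (r, k))) := by
    rw [← (dec J N).symm.tsum_eq, hsum'.tsum_prod, tsum_fintype]
  have hβ : ∀ j, 0 < ((N : ℂ) ^ 2 * ε t j).re := by
    intro j
    have : (N : ℂ) ^ 2 * ε t j = (((N : ℝ) ^ 2 : ℝ) : ℂ) * ε t j := by push_cast; ring
    rw [this, Complex.re_ofReal_mul]
    exact mul_pos (by positivity) (ht j)
  have h5 : ∀ r : J → ZMod N, ∑' k : J → ℤ, φ ((dec J N).symm (r, k)) *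
        qe (ε t) (P *ᵥ zv ((dec J N).symm (r, k))) = φ (fun j => ((r j).val : ℤ)) *
        ((|P.det|⁻¹ : ℝ) * (∏ j, (((N : ℂ) ^ 2 * ε t j)⁻¹) ^ (1 / 2 : ℂ)) * T t r) := by
    intro r
    rw [hT]
    simp only
    rw [← theta hRP hβ (s r), ← tsum_mul_left]
    refine tsum_congr fun k => ?_
    have h6 : φ ((dec J N).symm (r, k)) = φ (fun j => ((r j).val : ℤ)) := hφ _ _
    rw [h6]
    congr 1
    have h7 : zv ((dec J N).symm (r, k)) = (N : ℝ) • (s r + zv k) := by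
      funext j
      simp only [hs, Pi.smul_apply, Pi.add_apply, smul_eq_mul, mul_add, zv]
      change (((((r j).val : ℤ) + N * k j : ℤ)) : ℝ) = _
      push_cast
      field_simp
    rw [h7, Matrix.mulVec_smul]
    unfold qe
    congr 3
    refine Finset.sum_congr rfl fun j _ => ?_
    simp only [Pi.smul_apply, smul_eq_mul]
    push_cast
    ring
  rw [h4]
  simp_rw [h5]
  have h8 : ∏ j, (((N : ℂ) ^ 2 * ε t j)⁻¹) ^ (1 / 2 : ℂ) =
      ((N : ℂ) ^ Fintype.card J)⁻¹ * ∏ j, ((ε t j)⁻¹) ^ (1 / 2 : ℂ) := by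
    have h9 : ∀ j, (((N : ℂ) ^ 2 * ε t j)⁻¹) ^ (1 / 2 : ℂ) =
        (N : ℂ)⁻¹ * ((ε t j)⁻¹) ^ (1 / 2 : ℂ) := by
      intro j
      have h3 : ((N : ℂ) ^ 2 * ε t j)⁻¹ = (((N : ℝ)⁻¹ ^ 2 : ℝ) : ℂ) * (ε t j)⁻¹ := by
        rw [mul_inv]; push_cast; rw [inv_pow]
      rw [h3, real_mul_cpow (by positivity)]
      congr 1
      rw [show (1 / 2 : ℂ) = ((1 / 2 : ℝ) : ℂ) by push_cast; rfl,
        ← Complex.ofReal_cpow (by positivity)]
      rw [← Real.sqrt_eq_rpow, Real.sqrt_sq (by positivity)]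
      push_cast; rfl
    simp_rw [h9]
    rw [Finset.prod_mul_distrib, Finset.prod_const, Finset.card_univ, inv_pow]
  rw [h8]
  have h10 : ∏ j, ((ε t j)⁻¹) ^ (1 / 2 : ℂ) ≠ 0 := by
    refine Finset.prod_ne_zero_iff.mpr fun j _ => ?_
    rw [Complex.cpow_ne_zero_iff]
    left
    refine inv_ne_zero fun h => ?_
    have := ht j
    rw [h] at this; simp at this
  have h11 : ((N : ℂ) ^ Fintype.card J) ≠ 0 := pow_ne_zero _ hN'
  rw [eq_div_iff h10, Finset.sum_div, Finset.mul_sum, Finset.sum_mul]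
  refine Finset.sum_congr rfl fun r _ => ?_
  field_simp

open Complex in
/-- **Reciprocity of Gauss sums** (real, diagonalised form). -/
theorem gauss_recip (hRP : Rᵀ * P = 1) {c : J → ℝ} (hc : ∀ j, c j ≠ 0) {N : ℕ} [NeZero N]
    {φ φ' : (J → ℤ) → ℂ}
    (hφ : ∀ m, φ m = cexp (2 * π * I * ((∑ j, c j * (P *ᵥ zv m) j ^ 2 : ℝ) : ℂ)))
    (hφ' : ∀ k, φ' k = cexp (-(2 * π * I * ((∑ j, (R *ᵥ zv k) j ^ 2 / (4 * c j) : ℝ) : ℂ))))
    (hN : ∀ m k : J → ℤ, φ (m + fun j => N * k j) = φ m)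
    (hN' : ∀ m k : J → ℤ, φ' (m + fun j => N * k j) = φ' m) :
    mean φ = (((∏ j, 2 * |c j|) * |R.det|⁻¹ : ℝ) : ℂ) *
      (∏ j, (I / (2 * c j)) ^ (1 / 2 : ℂ)) * mean φ' := by
  have hPR := transpose_swap hRP
  have hdet : P.det ≠ 0 := by
    intro h0
    have := congrArg Matrix.det hRP
    rw [Matrix.det_mul, h0, mul_zero, Matrix.det_one] at this
    exact zero_ne_one this
  have hcC : ∀ j, (c j : ℂ) ≠ 0 := fun j => by exact_mod_cast hc j
  set l : Filter ℝ := 𝓝[>] 0 with hl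
  have hpos : ∀ᶠ t : ℝ in l, 0 < t := eventually_mem_nhdsWithin
  have hinv : Tendsto (fun t : ℝ => t⁻¹) l atTop := tendsto_inv_nhdsGT_zero
  -- first family
  have hA := tendsto_gauss hRP hN (l := l) (ε := fun t _ => (t : ℂ))
    (by filter_upwards [hpos] with t ht j; simpa using ht)
    (fun j => by
      refine hinv.congr fun t => ?_
      rw [← Complex.ofReal_inv, Complex.ofReal_re])
  set β : ℝ → J → ℂ := fun t j => (t : ℂ) - 2 * I * c j with hβ
  set ε : ℝ → J → ℂ := fun t j => (β t j)⁻¹ - I / (2 * c j) with hε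
  have hβ0 : ∀ t : ℝ, ∀ j, β t j ≠ 0 := by
    intro t j h0
    have := congrArg Complex.im h0
    simp [hβ] at this
    exact hc j this
  have hβre : ∀ t : ℝ, ∀ j, (β t j).re = t := by
    intro t j
    simp [hβ]
  have hεinv : ∀ t : ℝ, 0 < t → ∀ j, (ε t j)⁻¹ = ((t⁻¹ : ℝ) : ℂ) * (4 * c j ^ 2 + 2 * I * c j * t) := by
    intro t ht j
    have ht' : (t : ℂ) ≠ 0 := by exact_mod_cast ht.ne'
    have h1 : ε t j = -(I * t) / (2 * c j * β t j) := by
      simp only [hε]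
      rw [inv_eq_one_div, div_sub_div _ _ (hβ0 t j) (mul_ne_zero two_ne_zero (hcC j))]
      rw [mul_comm (β t j) (2 * (c j : ℂ))]
      congr 1
      simp only [hβ]
      linear_combination (2 * (c j : ℂ)) * Complex.I_sq
    rw [h1, inv_div, Complex.ofReal_inv, div_eq_iff (neg_ne_zero.mpr (mul_ne_zero I_ne_zero ht'))]
    simp only [hβ]
    field_simp
    linear_combination (2 * (c j : ℂ) * t) * Complex.I_sq
  have hεre : ∀ t : ℝ, 0 < t → ∀ j, ((ε t j)⁻¹).re = t⁻¹ * (4 * c j ^ 2) := by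
    intro t ht j
    rw [hεinv t ht j, Complex.re_ofReal_mul]
    congr 1
    simp [← Complex.ofReal_pow]
  have hB := tendsto_gauss hPR hN' (l := l) (ε := ε)
    (by
      filter_upwards [hpos] with t ht j
      have h1 : 0 < ((ε t j)⁻¹).re := by
        rw [hεre t ht j]
        have := hc j
        positivity
      have := re_inv_pos h1
      rwa [inv_inv] at this)
    (fun j => by
      have h1 : Tendsto (fun t : ℝ => t⁻¹ * (4 * c j ^ 2)) l atTop := by
        refine hinv.atTop_mul_const ?_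
        have := hc j
        positivity
      refine h1.congr' ?_
      filter_upwards [hpos] with t ht
      rw [hεre t ht j])
  -- the relation
  have hrel : ∀ t : ℝ, 0 < t → (∑' m : J → ℤ, φ m * qe (fun _ => (t : ℂ)) (P *ᵥ zv m)) /
      ∏ _j : J, ((t : ℂ)⁻¹) ^ (1 / 2 : ℂ) =
      (|P.det|⁻¹ : ℝ) * (∏ j, ((β t j)⁻¹) ^ (1 / 2 : ℂ)) *
      (∏ j, (4 * (c j : ℂ) ^ 2 + 2 * I * c j * t) ^ (1 / 2 : ℂ)) *
      ((∑' k : J → ℤ, φ' k * qe (ε t) (R *ᵥ zv k)) / ∏ j, ((ε t j)⁻¹) ^ (1 / 2 : ℂ)) := by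
    intro t ht
    have h1 : ∑' m : J → ℤ, φ m * qe (fun _ => (t : ℂ)) (P *ᵥ zv m) =
        ∑' m : J → ℤ, qe (β t) (P *ᵥ (0 + zv m)) := by
      refine tsum_congr fun m => ?_
      rw [hφ, zero_add]
      unfold qe
      rw [← Complex.exp_add]
      congr 1
      push_cast
      rw [Finset.mul_sum, Finset.mul_sum, Finset.mul_sum, ← Finset.sum_neg_distrib,
        ← Finset.sum_neg_distrib, ← Finset.sum_add_distrib]
      refine Finset.sum_congr rfl fun j _ => ?_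
      simp only [hβ]
      ring
    have h2 := theta hRP (β := β t) (fun j => by rw [hβre]; exact ht) 0
    have h3 : ∑' m : J → ℤ, qe (fun j => (β t j)⁻¹) (R *ᵥ zv m) * ex m 0 =
        ∑' k : J → ℤ, φ' k * qe (ε t) (R *ᵥ zv k) := by
      refine tsum_congr fun k => ?_
      have h4 : ex k (0 : J → ℝ) = 1 := by simp [ex]
      rw [h4, mul_one, hφ']
      unfold qe
      rw [← Complex.exp_add]
      congr 1
      push_cast
      rw [Finset.mul_sum, Finset.mul_sum, Finset.mul_sum, ← Finset.sum_neg_distrib,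
        ← Finset.sum_neg_distrib, ← Finset.sum_neg_distrib, ← Finset.sum_add_distrib]
      refine Finset.sum_congr rfl fun j _ => ?_
      simp only [hε]
      have := hcC j
      field_simp
      ring
    have h5 : ∏ j, ((ε t j)⁻¹) ^ (1 / 2 : ℂ) = (∏ _j : J, ((t : ℂ)⁻¹) ^ (1 / 2 : ℂ)) *
        ∏ j, (4 * (c j : ℂ) ^ 2 + 2 * I * c j * t) ^ (1 / 2 : ℂ) := by
      rw [← Finset.prod_mul_distrib]
      refine Finset.prod_congr rfl fun j _ => ?_
      rw [hεinv t ht j, real_mul_cpow (inv_pos.mpr ht), Complex.ofReal_inv]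
    rw [h1, h2, h3, h5]
    have ht' : (t : ℂ) ≠ 0 := by exact_mod_cast ht.ne'
    have h6 : (∏ _j : J, ((t : ℂ)⁻¹) ^ (1 / 2 : ℂ)) ≠ 0 :=
      Finset.prod_ne_zero_iff.mpr fun j _ => by
        rw [Complex.cpow_ne_zero_iff]; left; exact inv_ne_zero ht'
    have h7 : ∏ j, (4 * (c j : ℂ) ^ 2 + 2 * I * c j * t) ^ (1 / 2 : ℂ) ≠ 0 :=
      Finset.prod_ne_zero_iff.mpr fun j _ => by
        rw [Complex.cpow_ne_zero_iff]; left
        intro h0
        have := congrArg Complex.re h0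
        simp [← Complex.ofReal_pow] at this
        exact hc j this
    generalize (∏ _j : J, ((t : ℂ)⁻¹) ^ (1 / 2 : ℂ)) = A at h6 ⊢
    generalize ∏ j, (4 * (c j : ℂ) ^ 2 + 2 * I * c j * t) ^ (1 / 2 : ℂ) = B at h7 ⊢
    generalize ∏ j, ((β t j)⁻¹) ^ (1 / 2 : ℂ) = B'
    field_simp
  have hlim1 : Tendsto (fun t : ℝ => ∏ j, ((β t j)⁻¹) ^ (1 / 2 : ℂ)) l
      (𝓝 (∏ j, (I / (2 * c j)) ^ (1 / 2 : ℂ))) := by
    refine tendsto_finsetProd _ fun j _ => ?_
    have hne : -(2 * I * (c j : ℂ)) ≠ 0 :=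
      neg_ne_zero.mpr (mul_ne_zero (mul_ne_zero two_ne_zero I_ne_zero) (hcC j))
    have h1 : (I / (2 * c j) : ℂ) = (-(2 * I * (c j : ℂ)))⁻¹ := by
      refine eq_inv_of_mul_eq_one_left ?_
      have := hcC j
      field_simp
      linear_combination (-1 : ℂ) * Complex.I_sq
    have h2 : Tendsto (fun t : ℝ => (β t j)⁻¹) l (𝓝 ((-(2 * I * (c j : ℂ)))⁻¹)) := by
      refine Tendsto.inv₀ ?_ hne
      have h3 : Tendsto (fun t : ℝ => (t : ℂ) - 2 * I * c j) (𝓝 0) (𝓝 (((0 : ℝ) : ℂ) - 2 * I * c j)) :=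
        (Complex.continuous_ofReal.sub continuous_const).tendsto 0
      rw [Complex.ofReal_zero, zero_sub] at h3
      exact h3.mono_left nhdsWithin_le_nhds
    rw [h1]
    have h4 : (-(2 * I * (c j : ℂ)))⁻¹ ∈ Complex.slitPlane := by
      rw [← h1, Complex.mem_slitPlane_iff]
      right
      have : (I / (2 * c j) : ℂ) = ((1 / (2 * c j) : ℝ) : ℂ) * I := by
        push_cast; ring
      rw [this]
      simp [hc j]
    exact h2.cpow tendsto_const_nhds h4
  have hlim2 : Tendsto (fun t : ℝ => ∏ j, (4 * (c j : ℂ) ^ 2 + 2 * I * c j * t) ^ (1 / 2 : ℂ)) l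
      (𝓝 ((∏ j, 2 * |c j| : ℝ) : ℂ)) := by
    rw [Complex.ofReal_prod]
    refine tendsto_finsetProd _ fun j _ => ?_
    have h3 : Tendsto (fun t : ℝ => (4 * (c j : ℂ) ^ 2 + 2 * I * c j * t)) (𝓝 0)
        (𝓝 (4 * (c j : ℂ) ^ 2 + 2 * I * c j * ((0 : ℝ) : ℂ))) := by
      refine Continuous.tendsto ?_ 0
      fun_prop
    rw [Complex.ofReal_zero, mul_zero, add_zero] at h3
    have h4 : (4 * (c j : ℂ) ^ 2) = (((2 * |c j|) ^ 2 : ℝ) : ℂ) := by
      rw [mul_pow, sq_abs]; push_cast; ring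
    have h5 : (((2 * |c j|) ^ 2 : ℝ) : ℂ) ^ (1 / 2 : ℂ) = ((2 * |c j| : ℝ) : ℂ) := by
      rw [show (1 / 2 : ℂ) = ((1 / 2 : ℝ) : ℂ) by push_cast; rfl,
        ← Complex.ofReal_cpow (by positivity)]
      rw [← Real.sqrt_eq_rpow, Real.sqrt_sq (by positivity)]
    have h6 : Tendsto (fun t : ℝ => (4 * (c j : ℂ) ^ 2 + 2 * I * c j * t)) l
        (𝓝 (((2 * |c j|) ^ 2 : ℝ) : ℂ)) := by
      rw [← h4]
      exact h3.mono_left nhdsWithin_le_nhds
    rw [← h5]
    refine h6.cpow tendsto_const_nhds ?_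
    rw [Complex.ofReal_mem_slitPlane]
    have := hc j
    positivity
  have hlim := ((hlim1.const_mul ((|P.det|⁻¹ : ℝ) : ℂ)).mul hlim2).mul hB
  have hA' := hA.congr' (by
    filter_upwards [hpos] with t ht
    exact hrel t ht)
  have huniq := tendsto_nhds_unique hA' hlim
  have hd : ((|P.det|⁻¹ : ℝ) : ℂ) ≠ 0 := by
    have : |P.det|⁻¹ ≠ 0 := inv_ne_zero (abs_ne_zero.mpr hdet)
    exact_mod_cast this
  refine mul_left_cancel₀ hd ?_
  rw [huniq]
  push_cast
  ring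

end theta

end Fermat.Agent.LT.Recip
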