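import Fermat.Agent.LT.Recip.Gauss

/-!
# Quadratic extensions of number fields: basic algebra, and the diagonalisation of the norm form
-/

set_option autoImplicit false
set_option linter.unusedSectionVars false

open NumberField Module

namespace Fermat.Agent.LT.Recip

section quad

variable (F E : Type) [Field F] [Field E] [Algebra F E]

/-- A quadratic extension with its nontrivial automorphism. -/
structure QE where
  /-- the nontrivial automorphism -/
  t : E ≃ₐ[F] E
  ne : t ≠ 1
  h2 : finrank F E = 2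

theorem exists_QE [CharZero F] (h2 : finrank F E = 2) : Nonempty (QE F E) := by
  have : Algebra.IsQuadraticExtension F E := ⟨h2⟩
  have : FiniteDimensional F E := Module.finite_of_finrank_pos (by omega)
  have hcard : Nat.card (E ≃ₐ[F] E) = 2 := by rw [IsGalois.card_aut_eq_finrank, h2]
  have : Nontrivial (E ≃ₐ[F] E) := by
    rw [← Finite.one_lt_card_iff_nontrivial, hcard]; norm_num
  obtain ⟨t, ht⟩ := exists_ne (1 : E ≃ₐ[F] E)
  exact ⟨⟨t, ht, h2⟩⟩

end quad

section quad2

variable {F E : Type} [Field F] [CharZero F] [Field E] [Algebra F E] (Q : QE F E)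

namespace QE

include Q in
theorem finite : FiniteDimensional F E := Module.finite_of_finrank_pos (by rw [Q.h2]; norm_num)

include Q in
theorem isGalois : IsGalois F E := by
  have : Algebra.IsQuadraticExtension F E := ⟨Q.h2⟩
  infer_instance

theorem eq_one_or (σ : E ≃ₐ[F] E) : σ = 1 ∨ σ = Q.t := by
  have := Q.finite
  have := Q.isGalois
  have hcard : Nat.card (E ≃ₐ[F] E) = 2 := by rw [IsGalois.card_aut_eq_finrank, Q.h2]
  have := Fintype.ofFinite (E ≃ₐ[F] E)
  classical
  rw [Nat.card_eq_fintype_card] at hcard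
  have h3 : ({1, Q.t} : Finset (E ≃ₐ[F] E)) = Finset.univ := by
    rw [← Finset.card_eq_iff_eq_univ, hcard, Finset.card_pair Q.ne.symm]
  have := Finset.mem_univ σ
  rw [← h3] at this
  simpa using this

@[simp] theorem t_t (x : E) : Q.t (Q.t x) = x := by
  rcases Q.eq_one_or (Q.t * Q.t) with h | h
  · exact DFunLike.congr_fun h x
  · exact absurd (mul_right_cancel (h.trans (one_mul Q.t).symm)) Q.ne

theorem sum_aut {M : Type*} [AddCommMonoid M] [Fintype (E ≃ₐ[F] E)] (f : (E ≃ₐ[F] E) → M) :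
    ∑ σ, f σ = f 1 + f Q.t := by
  classical
  have h3 : (Finset.univ : Finset (E ≃ₐ[F] E)) = {1, Q.t} := by
    ext σ; simpa using Q.eq_one_or σ
  rw [h3, Finset.sum_pair Q.ne.symm]

theorem prod_aut {M : Type*} [CommMonoid M] [Fintype (E ≃ₐ[F] E)] (f : (E ≃ₐ[F] E) → M) :
    ∏ σ, f σ = f 1 * f Q.t := by
  classical
  have h3 : (Finset.univ : Finset (E ≃ₐ[F] E)) = {1, Q.t} := by
    ext σ; simpa using Q.eq_one_or σ
  rw [h3, Finset.prod_pair Q.ne.symm]

theorem trace_eq (x : E) : algebraMap F E (Algebra.trace F E x) = x + Q.t x := by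
  have := Q.finite
  have := Q.isGalois
  rw [trace_eq_sum_automorphisms, Q.sum_aut]; rfl

theorem norm_eq (x : E) : algebraMap F E (Algebra.norm F x) = x * Q.t x := by
  have := Q.finite
  have := Q.isGalois
  rw [Algebra.norm_eq_prod_automorphisms, Q.prod_aut]; rfl

theorem exists_of_fixed {x : E} (h : Q.t x = x) : ∃ a : F, algebraMap F E a = x := by
  have := Q.finite
  have := Q.isGalois
  have h1 : x ∈ Set.range (algebraMap F E) := by
    rw [IsGalois.mem_range_algebraMap_iff_fixed]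
    intro σ
    rcases Q.eq_one_or σ with rfl | rfl
    · rfl
    · exact h
  exact h1

/-- A generator with trace zero. -/
theorem exists_gen : ∃ (s : E) (d : F), s ≠ 0 ∧ d ≠ 0 ∧ Q.t s = -s ∧ s ^ 2 = algebraMap F E d := by
  obtain ⟨θ, hθ⟩ : ∃ θ, Q.t θ ≠ θ := by
    by_contra h
    push Not at h
    exact Q.ne (AlgEquiv.ext h)
  set s := θ - Q.t θ with hs
  have hs0 : s ≠ 0 := sub_ne_zero.mpr hθ.symm
  have ht : Q.t s = -s := by rw [hs, map_sub, Q.t_t]; ring
  obtain ⟨d, hd⟩ := Q.exists_of_fixed (x := s ^ 2) (by rw [map_pow, ht, neg_sq])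
  refine ⟨s, d, hs0, ?_, ht, hd.symm⟩
  rintro rfl
  rw [map_zero] at hd
  exact hs0 (pow_eq_zero_iff two_ne_zero |>.mp hd.symm)

end QE

end quad2

section coords

variable {F E : Type} [Field F] [CharZero F] [Field E] [Algebra F E] (Q : QE F E)

/-- first coordinate of `ξ = x + y s` -/
noncomputable def cX (F : Type) {E : Type} [Field F] [Field E] [Algebra F E] (ξ : E) : F :=
  Algebra.trace F E ξ / 2

/-- second coordinate of `ξ = x + y s` -/
noncomputable def cY {F E : Type} [Field F] [Field E] [Algebra F E] (s : E) (d : F) (ξ : E) : F :=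
  Algebra.trace F E (ξ * s) / (2 * d)

theorem cX_add (ξ η : E) : cX F (ξ + η) = cX F ξ + cX F η := by
  unfold cX; rw [map_add]; ring

theorem cY_add (s : E) (d : F) (ξ η : E) : cY s d (ξ + η) = cY s d ξ + cY s d η := by
  unfold cY; rw [add_mul, map_add]; ring

variable {s : E} {d : F}

theorem coord_eq (hs0 : s ≠ 0) (hts : Q.t s = -s) (hsd : s ^ 2 = algebraMap F E d) (ξ : E) :
    ξ = algebraMap F E (cX F ξ) + algebraMap F E (cY s d ξ) * s := by
  have : CharZero E := charZero_of_injective_algebraMap (algebraMap F E).injective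
  have h1 : algebraMap F E (cX F ξ) = (ξ + Q.t ξ) / 2 := by
    unfold cX; rw [map_div₀, Q.trace_eq, map_ofNat]
  have h2 : algebraMap F E (cY s d ξ) = (ξ * s - Q.t ξ * s) / (2 * s ^ 2) := by
    unfold cY; rw [map_div₀, Q.trace_eq, map_mul, map_mul, map_ofNat, ← hsd, hts]
    ring
  rw [h1, h2]
  field_simp
  ring

theorem t_coord (hs0 : s ≠ 0) (hts : Q.t s = -s) (hsd : s ^ 2 = algebraMap F E d) (ξ : E) :
    Q.t ξ = algebraMap F E (cX F ξ) - algebraMap F E (cY s d ξ) * s := by
  conv_lhs => rw [coord_eq Q hs0 hts hsd ξ]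
  rw [map_add, map_mul, AlgEquiv.commutes, AlgEquiv.commutes, hts]
  ring

theorem norm_coord (hs0 : s ≠ 0) (hts : Q.t s = -s) (hsd : s ^ 2 = algebraMap F E d) (ξ : E) :
    Algebra.norm F ξ = cX F ξ ^ 2 - d * cY s d ξ ^ 2 := by
  apply (algebraMap F E).injective
  rw [Q.norm_eq, t_coord Q hs0 hts hsd ξ]
  conv_lhs => enter [1]; rw [coord_eq Q hs0 hts hsd ξ]
  rw [map_sub, map_mul, map_pow, map_pow, ← hsd]
  ring

theorem trace_coord (hs0 : s ≠ 0) (hts : Q.t s = -s) (hsd : s ^ 2 = algebraMap F E d) (ξ η : E) :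
    Algebra.trace F E (ξ * η) = cX F ξ * (2 * cX F η) + cY s d ξ * (2 * d * cY s d η) := by
  apply (algebraMap F E).injective
  rw [Q.trace_eq, map_mul, t_coord Q hs0 hts hsd ξ, t_coord Q hs0 hts hsd η]
  conv_lhs => enter [1]; rw [coord_eq Q hs0 hts hsd ξ, coord_eq Q hs0 hts hsd η]
  rw [map_add, map_mul, map_mul, map_mul, map_mul, map_mul, map_ofNat, ← hsd]
  ring

end coords

section trace

variable {F : Type} [Field F] [NumberField F]

open InfinitePlace in
/-- The trace as a sum over the infinite places. -/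
theorem trace_eq_sum (z : F) :
    ((Algebra.trace ℚ F z : ℚ) : ℝ) = ∑ w : InfinitePlace F, (w.mult : ℝ) * (w.embedding z).re := by
  classical
  have h1 := trace_eq_sum_embeddings ℂ (K := ℚ) (L := F) (x := z)
  have h2 : ∑ σ : F →ₐ[ℚ] ℂ, σ z = ∑ φ : F →+* ℂ, φ z :=
    Fintype.sum_equiv (RingHom.equivRatAlgHom F ℂ).symm _ _ fun σ => rfl
  rw [h2] at h1
  have h3 : ((Algebra.trace ℚ F z : ℚ) : ℝ) = ∑ φ : F →+* ℂ, (φ z).re := by
    rw [← Complex.re_sum, ← h1]
    simp
  rw [h3, ← Finset.sum_fiberwise (s := Finset.univ) (g := fun φ : F →+* ℂ => InfinitePlace.mk φ)]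
  refine Finset.sum_congr rfl fun w _ => ?_
  have h4 : ∀ φ ∈ Finset.univ.filter (fun φ : F →+* ℂ => InfinitePlace.mk φ = w),
      (φ z).re = (w.embedding z).re := by
    intro φ hφ
    have h5 := (Finset.mem_filter.mp hφ).2
    rw [← InfinitePlace.mk_embedding w, InfinitePlace.mk_eq_iff] at h5
    rcases h5 with h5 | h5
    · rw [h5]
    · rw [← h5, ComplexEmbedding.conjugate_coe_eq, Complex.conj_re]
  rw [Finset.sum_congr rfl h4, Finset.sum_const, card_filter_mk_eq, nsmul_eq_mul]

end trace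

end Fermat.Agent.LT.Recip
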